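/-
S45, project CARAYOL-K, block PTS (owner helper219): DEFINITIONS AND THE INTERFACE OF THE BLOCK.

Everything lives in ONE field `F` (the function field of level `N₀ q^k`); the lower levels `0, 1, 2` only
enter through three abstract fields `F₀ F₁ F₂` and the maps
  `d i  : F₀ → F`  (`f(z) ↦ f(q^i z)`, `i ≤ k`),
  `st i : F₁ → F`  (the STEP `i`, `i < k`:      `st i ∘ al0 = d i`,  `st i ∘ be0 = d (i+1)`),
  `w i  : F₂ → F`  (the WINDOW `i`, `i + 1 < k`: `w i ∘ al1 = st i`, `w i ∘ be1 = st (i+1)`).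
INDEX OF THE COMPONENTS: `c : Fin (k+1)` = NUMBER OF LETTERS `V` (as in block TAB): the component `c` is
`F^(k-c) V^c`; its step `i` is `F` iff `i + c < k`.  `V1 0 = F`, `V1 1 = V`; `V2 0 = FF`, `V2 1 = FV`, `V2 2 = VV`.

* `PreModelK`, `PtBaseK`  : `BAD.Model.PreModel`, `BAD.Model.PtBase` for an arbitrary index type.
* `Geo`                   : the maps and the restrictions of the vertical valuations (from TAB + MOD).
* `B0`, `B1`, `B2`        : the point data of the levels `0`, `1`, `2` (from the S36 instance; MOD M4/M5).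
* `Top`                   : what is needed at level `k` itself (from TAB / M3).
-/
import Mathlib
import Fermat.Agent.S18.Defs
import Fermat.Agent.S36.BP.Defs
import Fermat.Agent.BAD.Model.Defs
import Fermat.Agent.BAD.Model.NonCusp.Defs
import Fermat.Agent.S45.K.Defs

set_option autoImplicit false

noncomputable section

namespace Fermat.Agent.S45.Pts

open Fermat.Agent.S18 Fermat.Agent.S36.BP Fermat.Agent.BAD.Model Fermat.Agent.S45.K
  IntermediateField Polynomial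

section Pre

variable {K₀ F : Type*} [Field K₀] [Field F] [Algebra K₀ F]

/-- The part of `ModelK` which does not speak of closed points or of norms, plus `gauss`. -/
structure PreModelK (A₀ : ValuationSubring K₀) (q : ℕ) (x : F) {κ : Type*}
    (V : κ → ValuationSubring F) : Prop where
  base : BaseHyp A₀ q
  transc : Transcendental K₀ x
  finite : FiniteDimensional K₀⟮x⟯ F
  const_mem : ∀ c, ∀ a ∈ A₀, algebraMap K₀ F a ∈ V c
  x_unit : ∀ c, (V c).valuation x = 1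
  /-- the reduction of `x` on the component `V c` is transcendental over the residue field -/
  gauss : ∀ c, ∀ p : K₀[X], (∀ i, p.coeff i ∈ A₀) → (V c).valuation (aeval x p) < 1 →
    ∀ i, A₀.valuation (p.coeff i) < 1
  inj : Function.Injective V
  unif : ∀ c, ∃ ϖ : F, IsUnif (V c) ϖ
  qep₁ : ∀ y : F, (q : F) * y ∈ chart A₀.toSubring x → (∀ c, y ∈ V c) → y ∈ chart A₀.toSubring x
  qep₂ : ∀ y : F, (q : F) * y ∈ chart A₀.toSubring x⁻¹ → (∀ c, y ∈ V c) →
    y ∈ chart A₀.toSubring x⁻¹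

/-- What the local analysis uses about a closed point `R` of the model. -/
structure PtBaseK (A₀ : ValuationSubring K₀) (q : ℕ) {κ : Type*} (V : κ → ValuationSubring F)
    (R : Subring F) : Prop where
  isPt : IsPt A₀ R
  leLoc_or_away : ∀ c, LeLoc R (V c) ∨ Away R (V c)
  not_all_away : ¬ ∀ c, Away R (V c)
  /-- the local `q`-expansion principle -/
  qep : ∀ y : F, (q : F) * y ∈ R → (∀ c, y ∈ V c ∨ Away R (V c)) → y ∈ R

end Pre

/-- the type of the step `i` on the component with `c` letters `V`: `0 = F`, `1 = V`. -/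
def sty (k c i : ℕ) : Fin 2 := if i + c < k then 0 else 1

/-- the type of the window `i` (steps `i`, `i + 1`) on the component with `c` letters `V`:
`0 = FF`, `1 = FV`, `2 = VV`. -/
def wty (k c i : ℕ) : Fin 3 := if i + 1 + c < k then 0 else if i + c < k then 1 else 2

/-- `φ(q^m)` for `m ≥ 1`, and `1` for `m = 0`. -/
def mult (q m : ℕ) : ℕ := if m = 0 then 1 else (q - 1) * q ^ (m - 1)

section Data

variable {K₀ F₀ F₁ F₂ F : Type*} [Field K₀] [Field F₀] [Field F₁] [Field F₂] [Field F]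
  [Algebra K₀ F₀] [Algebra K₀ F₁] [Algebra K₀ F₂] [Algebra K₀ F]

/-- **The maps from the levels `0, 1, 2` and the restrictions of the vertical valuations.** -/
structure Geo (A₀ : ValuationSubring K₀) (k : ℕ) (al0 be0 : F₀ →ₐ[K₀] F₁) (al1 be1 : F₁ →ₐ[K₀] F₂)
    (V0 : ValuationSubring F₀) (V1 : Fin 2 → ValuationSubring F₁) (V2 : Fin 3 → ValuationSubring F₂)
    (V : Fin (k + 1) → ValuationSubring F) (j : F₀)
    (d : ℕ → F₀ →ₐ[K₀] F) (st : ℕ → F₁ →ₐ[K₀] F) (w : ℕ → F₂ →ₐ[K₀] F) : Prop where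
  st_al : ∀ i < k, ∀ y, st i (al0 y) = d i y
  st_be : ∀ i < k, ∀ y, st i (be0 y) = d (i + 1) y
  w_al : ∀ i, i + 1 < k → ∀ y, w i (al1 y) = st i y
  w_be : ∀ i, i + 1 < k → ∀ y, w i (be1 y) = st (i + 1) y
  comap_d : ∀ c, ∀ i ≤ k, (V c).comap (d i : F₀ →+* F) = V0
  comap_st : ∀ c, ∀ i < k, (V c).comap (st i : F₁ →+* F) = V1 (sty k c i)
  comap_w : ∀ c, ∀ i, i + 1 < k → (V c).comap (w i : F₂ →+* F) = V2 (wty k c i)
  /-- `j(q^i z)` and `j(z)` are integral over each other (modular equations) -/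
  jint : ∀ i ≤ k, d i j ∈ chart A₀.toSubring (d 0 j) ∧ d 0 j ∈ chart A₀.toSubring (d i j)

/-- **Level `0`**: the good model, the base coordinate `x₀`, the modular unit `t`. -/
structure B0 (A₀ : ValuationSubring K₀) (q : ℕ) (V0 : ValuationSubring F₀) (j x₀ t : F₀)
    (F : Type*) [Field F] [Algebra K₀ F] : Prop where
  unif : IsUnif V0 (q : F₀)
  chart₁ : IsChart V0 (q : F₀) (chart A₀.toSubring x₀)
  chart₂ : IsChart V0 (q : F₀) (chart A₀.toSubring x₀⁻¹)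
  /-- "finite or infinite" passes from `j` to the base coordinate (`S36.Mod.Setup.BaseRel`) -/
  fin : ∀ (φ : F₀ →ₐ[K₀] F) (R : Subring F), IsPt A₀ R → (φ j ∈ R ∨ (φ j)⁻¹ ∈ rad R) →
    (φ x₀ ∈ R ∨ (φ x₀)⁻¹ ∈ R)
  j_ne : j ≠ 0
  j_unit : V0.valuation j = 1
  t_unit : V0.valuation t = 1
  t_int : t ∈ chart A₀.toSubring j
  t_int' : t⁻¹ ∈ chart A₀.toSubring j

/-- **Level `1`**: the modular unit `x₁ = G(z)/G(qz)` (it vanishes on `V1 1`), the Atkin-Lehner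
involution, the Frobenius relation, the modular equation at the cusps (`s = 1/j(z)`, `s' = 1/j(qz)`). -/
structure B1 (A₀ : ValuationSubring K₀) (q : ℕ) (al0 be0 : F₀ →ₐ[K₀] F₁)
    (V1 : Fin 2 → ValuationSubring F₁) (j t : F₀) (x₁ : F₁) (w1 : F₁ →ₐ[K₀] F₁)
    (cf : ℕ → ℕ → K₀) : Prop where
  x_ne : x₁ ≠ 0
  x_int : x₁ ∈ chart A₀.toSubring (al0 j)
  x_int' : (q : F₁) * x₁⁻¹ ∈ chart A₀.toSubring (al0 j)
  w_al : ∀ y, w1 (al0 y) = be0 y
  w_be : ∀ y, w1 (be0 y) = al0 y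
  comap_w : (V1 1).comap (w1 : F₁ →+* F₁) = V1 0
  /-- the Frobenius relation -/
  frob : ∀ h : F₀, (V1 0).valuation (al0 h) ≤ 1 →
    ∃ h' : F₀, (V1 0).valuation (al0 h') ≤ 1 ∧ (V1 0).valuation (be0 h' - al0 h ^ q) < 1
  dense : ∀ y : F₁, (V1 0).valuation y ≤ 1 → ∃ h : F₀, (V1 0).valuation (al0 h - y) < 1
  /-- `g(qz) ≡ g(z)^q` modulo `q`, for `g = j` and `g = t` -/
  kron_j : (V1 0).valuation ((be0 j - al0 j ^ q) / (q : F₁)) ≤ 1
  kron_t : (V1 0).valuation ((be0 t - al0 t ^ q) / (q : F₁)) ≤ 1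
  coeff_mem : ∀ a b, cf a b ∈ A₀
  coeff_unit : A₀.valuation (cf 0 0) = 1
  rel : Rel q cf (al0 j)⁻¹ (be0 j)⁻¹
  rel' : Rel q cf (be0 j)⁻¹ (al0 j)⁻¹

/-- the three indicator functions of level `2` -/
def Y2 (q : ℕ) (al1 be1 : F₁ →ₐ[K₀] F₂) (x₁ : F₁) : Fin 3 → F₂ :=
  ![(q : F₂) * (be1 x₁)⁻¹, be1 x₁ * (al1 x₁)⁻¹, al1 x₁]

/-- `g(q² z) / g(z) - 1` at level `2` -/
def z2 (al0 be0 : F₀ →ₐ[K₀] F₁) (al1 be1 : F₁ →ₐ[K₀] F₂) (g : F₀) : F₂ :=
  be1 (be0 g) * (al1 (al0 g))⁻¹ - 1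

/-- **Level `2`**: the explicit form of the node N5 of the S36 instance
(`κ = Y 0 * Y 2` for `q` odd, `κ = 1` for `q = 2`; the `e i` are `± 1`). -/
structure B2 (q : ℕ) (al0 be0 : F₀ →ₐ[K₀] F₁) (al1 be1 : F₁ →ₐ[K₀] F₂)
    (V2 : Fin 3 → ValuationSubring F₂) (j t : F₀) (x₁ : F₁) (κ : F₂) (e : Fin 4 → F₂) : Prop where
  nc : NonCuspData q V2 (Y2 q al1 be1 x₁) (z2 al0 be0 al1 be1 t) κ e
  kap : κ = Y2 q al1 be1 x₁ 0 * Y2 q al1 be1 x₁ 2 ∨ κ = 1
  e_pm : ∀ i, e i = 1 ∨ e i = -1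
  /-- `j(q² z)/j(z) - 1` is a uniformiser of the middle component -/
  ram_j : (V2 1).valuation (z2 al0 be0 al1 be1 j) ^ (q - 1) = (V2 1).valuation (q : F₂)

/-- `g(q^(a+i) z) / g(q^(a-i) z) - 1` at level `k`, `a = k - c` (the component with `c` letters `V`). -/
def zg (k : ℕ) (d : ℕ → F₀ →ₐ[K₀] F) (g : F₀) (c i : ℕ) : F :=
  d (k - c + i) g / d (k - c - i) g - 1

/-- **Level `k`**: what TAB (uniformisers, density, radiciality) and M3 (norms) must provide.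
`a = k - c` is the number of letters `F`, `m = min c (k - c)`. -/
structure Top (A₀ : ValuationSubring K₀) (q k : ℕ) (V : Fin (k + 1) → ValuationSubring F) (j : F₀)
    (d : ℕ → F₀ →ₐ[K₀] F) (Eα : Subfield F) (Nα Nβ N₀ : F →* F) : Prop where
  unif_zero : IsUnif (V 0) (q : F)
  unif_last : IsUnif (V (Fin.last k)) (q : F)
  /-- the explicit uniformiser `j(q^(a+m) z)/j(q^(a-m) z) - 1` of the middle components -/
  unif_mid : ∀ c : Fin (k + 1), 0 < (c : ℕ) → (c : ℕ) < k →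
    IsUnif (V c) (zg k d j c (min (c : ℕ) (k - c)))
  /-- residue degree one over level `0`, via `δ₀` if `a ≥ c`, via `δ_k` if `c ≥ a` -/
  dense_lo : ∀ c : Fin (k + 1), 2 * (c : ℕ) ≤ k → ∀ y ∈ V c, ∃ y₀ : F₀, (V c).valuation (d 0 y₀ - y) < 1
  dense_hi : ∀ c : Fin (k + 1), k ≤ 2 * (c : ℕ) → ∀ y ∈ V c, ∃ y₀ : F₀, (V c).valuation (d k y₀ - y) < 1
  radα : ∃ c, Rad q Nα (V c)
  radβ : ∃ c, Rad q Nβ (V c)
  normα_chart : ∀ b ∈ chart A₀.toSubring (d 0 j), Nα b ∈ chart A₀.toSubring (d 0 j)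
  normβ_chart : ∀ b ∈ chart A₀.toSubring (d 0 j), Nβ b ∈ chart A₀.toSubring (d 0 j)
  norm₀_chart : ∀ b ∈ chart A₀.toSubring (d 0 j), N₀ b ∈ chart A₀.toSubring (d 0 j)
  normα_mem : ∀ y, Nα y ∈ Eα
  tieα : ∀ y, N₀ (Nα y) = N₀ y ^ q
  tie_resα : ∃ c, ∀ y ∈ Eα, (V c).valuation y = 1 → (V c).valuation (N₀ y - y ^ (q * q)) < 1

end Data

end Fermat.Agent.S45.Pts

end
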