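/-
S45, project CARAYOL-K, block PTS (helper145): the CHAIN LEMMA (principality of the prime of a
component of multiplicity `> 1` at a point which lies on this component only).

`W = V c₀` is the only component through `R`.  `z 0 = q, z 1, .., z m ∈ R`, and for every `i < m`
`(z (i+1)) ^ n / z i * κ ≡ ε` on `W` with `n ≥ 1` and `κ, ε` units of `R`.
[Level `q^k`, component `F^a V^b`, `m = min a b`: `z 1 ^ (q-1) / q * κ ≡ e 3` is the pull back of
`NonCuspData.congz` (level `q²`), `z (i+1) ^ q / z i ≡ 1` is 2(iii) of the blueprint #1687.]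
Then every `z i` is a horizontal unit (`q / z i ∈ R`); if `z m` is a uniformiser of `W` it generates
`R ∩ 𝔪_W`.
-/
import Mathlib
import Fermat.Agent.S18.Defs
import Fermat.Agent.S36.BP.Defs
import Fermat.Agent.S36.BP.Rad
import Fermat.Agent.S36.BP.Build.LocalCrit
import Fermat.Agent.S36.BP.Build.Level0

set_option autoImplicit false

noncomputable section

namespace Fermat.Agent.S45.Pts

open Fermat.Agent.S18 Fermat.Agent.S36.BP Fermat.Agent.S36.BP.Build

variable {F : Type*} [Field F] {κ : Type*}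

/-- an element of `R` which is `≡ 1` on a component through `R` is a unit of `R` -/
theorem runit_of_cong_one {R : Subring F} {W : ValuationSubring F}
    (hadd : ∀ a ∈ rad R, ∀ b ∈ rad R, a + b ∈ rad R) (hle : ∀ r ∈ R, r ∈ W) {r : F} (hr : r ∈ R)
    (h1 : W.valuation (r - 1) < 1) : RUnit R r := by
  rcases runit_or_mem_rad hr with h | h
  · exact h
  · exfalso
    have h2 : r - 1 ∈ rad R := mem_rad_of_val_lt hle (R.sub_mem hr R.one_mem) h1
    have h3 := hadd _ h _ (neg_mem_rad h2)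
    have e : r + -(r - 1) = 1 := by ring
    rw [e] at h3
    exact h3.2 (RUnit.one R)

/-- one step of the chain -/
theorem hor_step {q : ℕ} {V : κ → ValuationSubring F} {R : Subring F} (hqep : LocQep q V R)
    (hadd : ∀ a ∈ rad R, ∀ b ∈ rad R, a + b ∈ rad R) {c₀ : κ} (ht : Through R (V c₀))
    (honly : ∀ c, c ≠ c₀ → Away R (V c)) {s z k ε : F} {n : ℕ} (hn : n ≠ 0) (hs0 : s ≠ 0)
    (hs : (q : F) / s ∈ R) (hz : z ∈ R) (hz0 : z ≠ 0) (hk : RUnit R k) (hε : RUnit R ε)
    (hc : (V c₀).valuation (z ^ n / s * k - ε) < 1) : (q : F) / z ∈ R := by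
  have hε0 := hε.ne_zero
  have hk0 := hk.ne_zero
  have hvε : (V c₀).valuation ε = 1 := hε.val_eq_one ht.le
  -- `r = z ^ n k / (s ε)`
  have hr1 : (V c₀).valuation (z ^ n / s * k / ε - 1) < 1 := by
    have e : z ^ n / s * k / ε - 1 = (z ^ n / s * k - ε) / ε := by
      field_simp
    rw [e, map_div₀, hvε, div_one]
    exact hc
  have hrR : z ^ n / s * k / ε ∈ R := by
    refine hqep _ ?_ ?_
    · have e : (q : F) * (z ^ n / s * k / ε) = z ^ n * k * ε⁻¹ * ((q : F) / s) := by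
        field_simp
      rw [e]
      exact R.mul_mem (R.mul_mem (R.mul_mem (R.pow_mem hz n) hk.mem) hε.inv_mem) hs
    · intro c hc'
      by_cases e : c = c₀
      · subst e
        rw [mem_iff_val_le]
        have h2 : Cg (V c) (z ^ n / s * k / ε) 1 := hr1
        exact h2.val_le_one (by rw [map_one])
      · exact absurd (honly c e) (not_away_of_through hc')
  have hru : RUnit R (z ^ n / s * k / ε) := runit_of_cong_one hadd ht.le hrR hr1
  obtain ⟨m, rfl⟩ := Nat.exists_eq_succ_of_ne_zero hn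
  have e : (q : F) / z = (q : F) / s * (k * ε⁻¹ * (z ^ (m + 1) / s * k / ε)⁻¹) * z ^ m := by
    field_simp
    ring
  rw [e]
  exact R.mul_mem (R.mul_mem hs (R.mul_mem (R.mul_mem hk.mem hε.inv_mem) hru.inv_mem))
    (R.pow_mem hz m)

/-- **Chain lemma**: all the `z i` are horizontal units. -/
theorem hor_chain {q : ℕ} {V : κ → ValuationSubring F} {R : Subring F} (hqep : LocQep q V R)
    (hadd : ∀ a ∈ rad R, ∀ b ∈ rad R, a + b ∈ rad R) {c₀ : κ} (ht : Through R (V c₀))
    (honly : ∀ c, c ≠ c₀ → Away R (V c)) (z : ℕ → F) (h0 : z 0 = (q : F)) (m : ℕ)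
    (hz : ∀ i ≤ m, z i ∈ R) (hz0 : ∀ i ≤ m, z i ≠ 0)
    (hstep : ∀ i < m, ∃ n : ℕ, n ≠ 0 ∧ ∃ k ε : F, RUnit R k ∧ RUnit R ε ∧
      (V c₀).valuation (z (i + 1) ^ n / z i * k - ε) < 1) :
    ∀ i ≤ m, (q : F) / z i ∈ R := by
  intro i
  induction i with
  | zero =>
    intro _
    rw [h0, div_self (by rw [← h0]; exact hz0 0 (Nat.zero_le m))]
    exact R.one_mem
  | succ i ih =>
    intro hi
    obtain ⟨n, hn, k, ε, hk, hε, hc⟩ := hstep i hi
    exact hor_step hqep hadd ht honly hn (hz0 i (by omega)) (ih (by omega)) (hz (i + 1) hi)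
      (hz0 (i + 1) hi) hk hε hc

/-- **Principality at a point which lies on one component only.** -/
theorem princ_chain {q : ℕ} {V : κ → ValuationSubring F} {R : Subring F} (hqep : LocQep q V R)
    (hadd : ∀ a ∈ rad R, ∀ b ∈ rad R, a + b ∈ rad R) {c₀ : κ} (ht : Through R (V c₀))
    (honly : ∀ c, c ≠ c₀ → Away R (V c)) (z : ℕ → F) (h0 : z 0 = (q : F)) (m : ℕ)
    (hz : ∀ i ≤ m, z i ∈ R) (hz0 : ∀ i ≤ m, z i ≠ 0)
    (hstep : ∀ i < m, ∃ n : ℕ, n ≠ 0 ∧ ∃ k ε : F, RUnit R k ∧ RUnit R ε ∧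
      (V c₀).valuation (z (i + 1) ^ n / z i * k - ε) < 1)
    (hU : IsUnif (V c₀) (z m)) : Princ R (V c₀) := by
  have hq := hor_chain hqep hadd ht honly z h0 m hz hz0 hstep m le_rfl
  have hv : (V c₀).valuation (z m) ≠ 0 := (Valuation.ne_zero_iff _).2 (hz0 m le_rfl)
  refine princ_of hqep c₀ (hz m le_rfl) (hz0 m le_rfl) (k := 1) (by rwa [pow_one])
    (Level0.val_unif_lt_one hU) ?_ ?_
  · intro y hy
    have h3 := Level0.div_mem_of_val_lt_one hU hy
    rw [mem_iff_val_le, map_div₀] at h3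
    exact (div_le_one₀ (zero_lt_iff.2 hv)).1 h3
  · intro c hc hc'
    exact absurd (honly c hc) (not_away_of_through hc')

end Fermat.Agent.S45.Pts

end
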