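/-
S45, project CARAYOL-K, block PTS, node GEN (helper88): the chain
`z_i = g(q^(a+i) z)/g(q^(a-i) z) - 1` on a middle component, for any good `g`
(`Gen/Step.lean`: `Pal.step` on the sub-window `[a-i-1, a+i+1]`).

`gen_chain'` has the hypothesis `(V c).valuation (q : F) < 1`; `gen_chain` gets it from `B0`
(`val_q_lt_one`).
-/
import Fermat.Agent.S45.Pts.Defs
import Fermat.Agent.S45.Gen.Step
import Fermat.Agent.S36.BP.Base

set_option autoImplicit false

noncomputable section

namespace Fermat.Agent.S45.Pts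

open Fermat.Agent.S18 Fermat.Agent.S36.BP Fermat.Agent.BAD.Model Fermat.Agent.S45.K
  Fermat.Agent.S45.Gen

theorem mult_one (q : ℕ) : mult q 1 = q - 1 := by simp [mult]

theorem mult_succ (q i : ℕ) (hi : 1 ≤ i) : mult q (i + 1) = q * mult q i := by
  obtain ⟨n, rfl⟩ : ∃ n, i = n + 1 := ⟨i - 1, by omega⟩
  simp only [mult, Nat.add_eq_zero_iff, one_ne_zero, and_false, if_false, Nat.add_sub_cancel]
  rw [pow_succ]; ring

theorem mult_pos {q : ℕ} (hq : 2 ≤ q) (i : ℕ) : 1 ≤ mult q i := by
  unfold mult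
  split_ifs
  · exact le_rfl
  · exact Nat.mul_pos (by omega) (pow_pos (by omega) _)

variable {K₀ F₀ F₁ F₂ F : Type*} [Field K₀] [Field F₀] [Field F₁] [Field F₂] [Field F]
  [Algebra K₀ F₀] [Algebra K₀ F₁] [Algebra K₀ F₂] [Algebra K₀ F]
variable {A₀ : ValuationSubring K₀} {q k : ℕ} {al0 be0 : F₀ →ₐ[K₀] F₁} {al1 be1 : F₁ →ₐ[K₀] F₂}
  {V0 : ValuationSubring F₀} {V1 : Fin 2 → ValuationSubring F₁} {V2 : Fin 3 → ValuationSubring F₂}
  {V : Fin (k + 1) → ValuationSubring F} {j x₀ t : F₀} {x₁ : F₁} {w1 : F₁ →ₐ[K₀] F₁}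
  {cf : ℕ → ℕ → K₀}
  {d : ℕ → F₀ →ₐ[K₀] F} {st : ℕ → F₁ →ₐ[K₀] F} {w : ℕ → F₂ →ₐ[K₀] F}

/-- `q` is a nonunit of every vertical valuation. -/
theorem val_q_lt_one (G : Geo A₀ k al0 be0 al1 be1 V0 V1 V2 V j d st w)
    (b0 : B0 A₀ q V0 j x₀ t F) (c : Fin (k + 1)) : (V c).valuation (q : F) < 1 := by
  have h1 : V0.valuation (q : F₀) < 1 := valuation_lt_one_of_isUnif b0.unif
  have h2 := (val_lt_one_of_comap (G.comap_d c 0 (Nat.zero_le k)) (q : F₀)).2 h1
  rwa [map_natCast] at h2

theorem levelQ_of_b1 (b1 : B1 A₀ q al0 be0 V1 j t x₁ w1 cf) :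
    LevelQ q (al0 : F₀ →+* F₁) (be0 : F₀ →+* F₁) (V1 0) :=
  ⟨b1.frob, b1.dense⟩

/-- the component with `c` letters `V` is of type `F^i V^i` on the window `[a - i, a + i]`. -/
theorem pal_window (G : Geo A₀ k al0 be0 al1 be1 V0 V1 V2 V j d st w)
    (b1 : B1 A₀ q al0 be0 V1 j t x₁ w1 cf) (c : Fin (k + 1)) (i : ℕ) (hi : i ≤ (c : ℕ))
    (hi' : i ≤ k - c) :
    Pal (al0 : F₀ →+* F₁) (be0 : F₀ →+* F₁) (V1 0) (V c) i
      (fun l => (d (k - c - i + l) : F₀ →+* F))
      (fun l => if l < i then (st (k - c - i + l) : F₁ →+* F)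
        else (st (k - c - i + l) : F₁ →+* F).comp (w1 : F₁ →+* F₁)) := by
  have hck : (c : ℕ) ≤ k := Nat.lt_succ_iff.1 c.2
  refine ⟨fun l hl => ?_, fun l hl h => ?_, fun l hl1 hl2 h => ?_⟩
  · have hn : k - c - i + l < k := by omega
    by_cases h : l < i
    · simp only [if_pos h]
      rw [G.comap_st c _ hn, sty, if_pos (by omega)]
    · simp only [if_neg h]
      rw [← ValuationSubring.comap_comap, G.comap_st c _ hn, sty, if_neg (by omega)]
      exact b1.comap_w
  · have hn : k - c - i + l < k := by omega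
    simp only [if_pos hl]
    exact ⟨G.st_al _ hn h, G.st_be _ hn h⟩
  · have hn : k - c - i + l < k := by omega
    simp only [if_neg (not_lt.2 hl1)]
    refine ⟨?_, ?_⟩
    · show st (k - c - i + l) (w1 (al0 h)) = _
      rw [b1.w_al]
      exact G.st_be _ hn h
    · show st (k - c - i + l) (w1 (be0 h)) = _
      rw [b1.w_be]
      exact G.st_al _ hn h

/-- **GEN**, with the hypothesis that `q` is a nonunit of `V c`. -/
theorem gen_chain' (hb : BaseHyp A₀ q) (G : Geo A₀ k al0 be0 al1 be1 V0 V1 V2 V j d st w)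
    (b1 : B1 A₀ q al0 be0 V1 j t x₁ w1 cf) (c : Fin (k + 1))
    (hqW : (V c).valuation (q : F) < 1)
    (g : F₀) (hg : (V1 0).valuation (al0 g) = 1)
    (hfr : (V1 0).valuation ((be0 g - al0 g ^ q) / (q : F₁)) ≤ 1)
    (hbase : (V c).valuation (zg k d g c 1) ^ (q - 1) = (V c).valuation (q : F)) :
    ∀ i, 1 ≤ i → i ≤ min (c : ℕ) (k - c) →
      (V c).valuation (zg k d g c i) ^ mult q i = (V c).valuation (q : F) ∧
      (i < min (c : ℕ) (k - c) →
        (V c).valuation (zg k d g c (i + 1) ^ q / zg k d g c i - 1) < 1) := by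
  have hq := hb.prime
  have hck : (c : ℕ) ≤ k := Nat.lt_succ_iff.1 c.2
  have : CharZero K₀ := hb.charZero
  have : CharZero F := charZero_of_injective_algebraMap (algebraMap K₀ F).injective
  have hq0 : (q : F) ≠ 0 := Nat.cast_ne_zero.2 hq.ne_zero
  have L := levelQ_of_b1 b1
  -- `d n g` is a unit of `V c`
  have hunit : ∀ n < k, (V c).valuation (d n g) = 1 := by
    intro n hn
    by_cases h : n + c < k
    · have h1 := G.comap_st c n hn
      rw [sty, if_pos h] at h1
      have := (val_eq_one_of_comap h1 (al0 g)).2 hg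
      rwa [show (st n : F₁ →+* F) (al0 g) = st n (al0 g) from rfl, G.st_al n hn] at this
    · have h1 := G.comap_st c n hn
      rw [sty, if_neg h] at h1
      have h2 : (V c).comap ((st n : F₁ →+* F).comp (w1 : F₁ →+* F₁)) = V1 0 := by
        rw [← ValuationSubring.comap_comap, h1]
        exact b1.comap_w
      have := (val_eq_one_of_comap h2 (be0 g)).2 ?_
      · rwa [show ((st n : F₁ →+* F).comp (w1 : F₁ →+* F₁)) (be0 g) = st n (w1 (be0 g)) from rfl,
          b1.w_be, G.st_al n hn] at this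
      · -- `be0 g ≡ (al0 g)^q` is a unit of `V1 0`
        have hq1 : (q : F₁) ≠ 0 := by
          have : CharZero F₁ := charZero_of_injective_algebraMap (algebraMap K₀ F₁).injective
          exact Nat.cast_ne_zero.2 hq.ne_zero
        have hqV1 : (V1 0).valuation (q : F₁) < 1 := by
          have h3 := (val_lt_one_of_comap h2 (q : F₁)).1
          rw [map_natCast] at h3
          exact h3 hqW
        have e : be0 g - al0 g ^ q = (q : F₁) * ((be0 g - al0 g ^ q) / (q : F₁)) := by
          field_simp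
        have hc : Cg (V1 0) (be0 g) (al0 g ^ q) := by
          rw [cg_def, e, map_mul]
          exact mul_lt_one_of_lt_of_le hqV1 hfr
        exact hc.val_eq_one (val_pow_eq_one hg q)
  -- the step
  have step : ∀ i, 1 ≤ i → i < min (c : ℕ) (k - c) →
      (V c).valuation (zg k d g c i) ^ mult q i = (V c).valuation (q : F) →
      (V c).valuation (zg k d g c (i + 1)) ^ q = (V c).valuation (zg k d g c i) ∧
        (V c).valuation (zg k d g c (i + 1) ^ q / zg k d g c i - 1) < 1 := by
    intro i hi1 hi2 hP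
    have hic : i + 1 ≤ (c : ℕ) := by omega
    have hik : i + 1 ≤ k - c := by omega
    have P := pal_window G b1 c (i + 1) hic hik
    have e0 : k - c - (i + 1) + 0 = k - c - (i + 1) := by omega
    have e1 : k - c - (i + 1) + 1 = k - c - i := by omega
    have e2 : k - c - (i + 1) + (2 * (i + 1) - 1) = k - c + i := by omega
    have e3 : k - c - (i + 1) + 2 * (i + 1) = k - c + (i + 1) := by omega
    have hu : (V c).valuation (d (k - c - i) g) = 1 := hunit _ (by omega)
    have hu0 : d (k - c - i) g ≠ 0 := ne_zero_of_val_eq_one hu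
    have hzlt : (V c).valuation (zg k d g c i) < 1 := by
      by_contra hcon
      rw [not_lt] at hcon
      have : 1 ≤ (V c).valuation (zg k d g c i) ^ mult q i := one_le_pow₀ hcon
      rw [hP] at this
      exact absurd hqW (not_lt.2 this)
    have hS : (V c).valuation (q : F) ≤
        (V c).valuation (d (k - c + i) g - d (k - c - i) g) := by
      have e : d (k - c + i) g - d (k - c - i) g = zg k d g c i * d (k - c - i) g := by
        rw [zg]; field_simp
      rw [e, map_mul, hu, mul_one, ← hP]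
      exact pow_le_of_le_one zero_le hzlt.le (by have := mult_pos hq.two_le i; omega)
    have := P.step L hq hq0 hqW (by omega) g hg hfr (by
      simp only [e1, e2]
      exact hS)
    simp only [e0, e1, e2, e3] at this
    exact this
  intro i hi1
  induction i, hi1 using Nat.le_induction with
  | base =>
    intro hi2
    have hP : (V c).valuation (zg k d g c 1) ^ mult q 1 = (V c).valuation (q : F) := by
      rw [mult_one]; exact hbase
    exact ⟨hP, fun h => (step 1 le_rfl h hP).2⟩
  | succ i hi1 ih =>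
    intro hi2
    obtain ⟨hP, -⟩ := ih (by omega)
    have hs := step i hi1 (by omega) hP
    have hP' : (V c).valuation (zg k d g c (i + 1)) ^ mult q (i + 1) =
        (V c).valuation (q : F) := by
      rw [mult_succ q i hi1, pow_mul, hs.1, hP]
    exact ⟨hP', fun h => (step (i + 1) (by omega) h hP').2⟩

/-- **GEN** (contract of `Pts/WIP/Master.lean`, plus `b0`, which gives `V c (q) < 1`). -/
theorem gen_chain (hb : BaseHyp A₀ q) (G : Geo A₀ k al0 be0 al1 be1 V0 V1 V2 V j d st w)
    (b0 : B0 A₀ q V0 j x₀ t F)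
    (b1 : B1 A₀ q al0 be0 V1 j t x₁ w1 cf) (c : Fin (k + 1)) (_hc0 : 0 < (c : ℕ))
    (_hck : (c : ℕ) < k)
    (g : F₀) (hg : (V1 0).valuation (al0 g) = 1)
    (hfr : (V1 0).valuation ((be0 g - al0 g ^ q) / (q : F₁)) ≤ 1)
    (hbase : (V c).valuation (zg k d g c 1) ^ (q - 1) = (V c).valuation (q : F)) :
    ∀ i, 1 ≤ i → i ≤ min (c : ℕ) (k - c) →
      (V c).valuation (zg k d g c i) ^ mult q i = (V c).valuation (q : F) ∧
      (i < min (c : ℕ) (k - c) →
        (V c).valuation (zg k d g c (i + 1) ^ q / zg k d g c i - 1) < 1) :=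
  gen_chain' hb G b1 c (val_q_lt_one G b0 c) g hg hfr hbase

end Fermat.Agent.S45.Pts

end
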