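/-
S45, block PTS, node NORM (helper169): at a crossing point the three norms `Nα`, `Nβ`, `N₀` preserve the units of
the local ring.  No uniqueness of the point above its image is needed: on a radicial component `W` through `𝔫` the norm
is congruent to the `q`-th power, and the prime `B ∩ 𝔪(W)` is contained in `𝔫`
(`S36/Inst/HalfPt/NormUnit.normUnit_of_cong`).  For `N₀`: `N₀ b ^ q = N₀ (Nα b) ≡ (Nα b) ^ (q * q)`.
-/
import Fermat.Agent.S45.Pts.Defs
import Fermat.Agent.S36.BP.Rad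
import Fermat.Agent.S36.BP.Loc.Basic
import Fermat.Agent.S36.Inst.HalfPt.NormUnit

set_option autoImplicit false

noncomputable section

namespace Fermat.Agent.S45.Pts

open Fermat.Agent.S18 Fermat.Agent.S36.BP Fermat.Agent.BAD.Model Fermat.Agent.S45.K
  Fermat.Agent.S36.Inst.HalfPt

section Abs

variable {F : Type*} [Field F] {q : ℕ}

/-- `Rad.res` + `Rad.ord` give the congruence `N y ≡ y ^ q` for all the elements of `W`. -/
theorem rad_cong_pow {N : F →* F} {W : ValuationSubring F} (H : Rad q N W) (hq : 0 < q) {y : F}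
    (hy : y ∈ W) : W.valuation (N y - y ^ q) < 1 := by
  rcases (mem_iff_val_le.1 hy).lt_or_eq with h | h
  · have h1 : W.valuation y ^ q < 1 := pow_lt_one₀ zero_le h hq.ne'
    refine Valuation.map_sub_lt _ ?_ ?_
    · rw [H.ord]
      exact h1
    · rw [map_pow]
      exact h1
  · exact H.res y h

/-- a component through the point `B_𝔫`: the prime `B ∩ 𝔪(W)` is contained in `𝔫`. -/
theorem mem_of_through {B : Subring F} {𝔫 : Ideal B} [𝔫.IsMaximal] {W : ValuationSubring F}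
    (hle : ∀ r ∈ locSub B 𝔫, r ∈ W) (b : B) (hb : W.valuation (b : F) < 1) : b ∈ 𝔫 := by
  by_contra hmem
  have h1 : RUnit (locSub B 𝔫) (b : F) :=
    ⟨coe_ne_zero_of_notMem hmem, le_locSub b.2, inv_mem_locSub hmem⟩
  exact absurd (h1.val_eq_one hle) hb.ne

/-- an element of `B` outside `𝔫` is a unit of every component through `B_𝔫`. -/
theorem val_eq_one_of_notMem {B : Subring F} {𝔫 : Ideal B} [𝔫.IsMaximal] {W : ValuationSubring F}
    (hle : ∀ r ∈ locSub B 𝔫, r ∈ W) (b : B) (hb : b ∉ 𝔫) : W.valuation (b : F) = 1 :=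
  RUnit.val_eq_one hle ⟨coe_ne_zero_of_notMem hb, le_locSub b.2, inv_mem_locSub hb⟩

/-- **The norm of a radicial component through the point preserves the units.** -/
theorem normUnit_of_rad (hq : 0 < q) {N : F →* F} {W : ValuationSubring F} (H : Rad q N W)
    (B : Subring F) (hint : ∀ b ∈ B, N b ∈ B) (𝔫 : Ideal B) [𝔫.IsMaximal]
    (hle : ∀ r ∈ locSub B 𝔫, r ∈ W) :
    ∀ ε : F, RUnit (locSub B 𝔫) ε → RUnit (locSub B 𝔫) (N ε) :=
  normUnit_of_cong (q := q) B W N hint (fun b hb => rad_cong_pow H hq (hle b (le_locSub hb))) 𝔫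
    (mem_of_through hle)

/-- **The norm `N₀` to the common subfield preserves the units**: `N₀ b ^ q = N₀ (N b)`, `N b ∈ E`, and
`N₀ y ≡ y ^ (q * q)` for the units `y ∈ E` of a component `W'` through the point. -/
theorem normUnit_of_tie (hq : 0 < q) {N N₀ : F →* F} {W W' : ValuationSubring F} {E : Subfield F}
    (H : Rad q N W) (hmem : ∀ y, N y ∈ E) (htie : ∀ y, N₀ (N y) = N₀ y ^ q)
    (hres : ∀ y ∈ E, W'.valuation y = 1 → W'.valuation (N₀ y - y ^ (q * q)) < 1)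
    (B : Subring F) (hint : ∀ b ∈ B, N b ∈ B) (hint₀ : ∀ b ∈ B, N₀ b ∈ B)
    (𝔫 : Ideal B) [𝔫.IsMaximal] (hle : ∀ r ∈ locSub B 𝔫, r ∈ W)
    (hle' : ∀ r ∈ locSub B 𝔫, r ∈ W') :
    ∀ ε : F, RUnit (locSub B 𝔫) ε → RUnit (locSub B 𝔫) (N₀ ε) := by
  have hprime : 𝔫.IsPrime := Ideal.IsMaximal.isPrime inferInstance
  -- `N` preserves the complement of `𝔫`
  have key1 : ∀ b : B, b ∉ 𝔫 → (⟨N b, hint b b.2⟩ : B) ∉ 𝔫 := by
    intro b hb hNb
    have h1 : (⟨N b, hint b b.2⟩ - b ^ q : B) ∈ 𝔫 := mem_of_through hle _ (by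
      push_cast
      exact rad_cong_pow H hq (hle b (le_locSub b.2)))
    have h2 : b ^ q ∈ 𝔫 := by
      have := 𝔫.sub_mem hNb h1
      rwa [sub_sub_cancel] at this
    exact hb (hprime.mem_of_pow_mem q h2)
  -- `N₀` preserves the complement of `𝔫` in `B ∩ E`
  have key2 : ∀ b : B, (b : F) ∈ E → b ∉ 𝔫 → (⟨N₀ b, hint₀ b b.2⟩ : B) ∉ 𝔫 := by
    intro b hbE hb hNb
    have h1 : (⟨N₀ b, hint₀ b b.2⟩ - b ^ (q * q) : B) ∈ 𝔫 := mem_of_through hle' _ (by
      push_cast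
      exact hres b hbE (val_eq_one_of_notMem hle' b hb))
    have h2 : b ^ (q * q) ∈ 𝔫 := by
      have := 𝔫.sub_mem hNb h1
      rwa [sub_sub_cancel] at this
    exact hb (hprime.mem_of_pow_mem _ h2)
  have key : ∀ b : B, b ∉ 𝔫 → (⟨N₀ b, hint₀ b b.2⟩ : B) ∉ 𝔫 := by
    intro b hb hNb
    have h1 := key2 ⟨N b, hint b b.2⟩ (hmem b) (key1 b hb)
    apply h1
    have h2 : (⟨N₀ (N b), hint₀ _ (hint b b.2)⟩ : B) = (⟨N₀ b, hint₀ b b.2⟩ : B) ^ q :=
      Subtype.ext (by push_cast; exact htie b)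
    show (⟨N₀ (N b), hint₀ _ (hint b b.2)⟩ : B) ∈ 𝔫
    rw [h2]
    exact Ideal.pow_mem_of_mem _ hNb q hq
  intro ε hε
  obtain ⟨a, s, ha, hs, e⟩ := rUnit_locSub_iff.1 hε
  exact rUnit_locSub_iff.2 ⟨⟨N₀ a, hint₀ a a.2⟩, ⟨N₀ s, hint₀ s s.2⟩, key a ha, key s hs, by
    show N₀ ε * N₀ s = N₀ a
    rw [← map_mul, e]⟩

end Abs

section Main

variable {K₀ F₀ F : Type*} [Field K₀] [Field F₀] [Field F] [Algebra K₀ F₀] [Algebra K₀ F]
variable {A₀ : ValuationSubring K₀} {q k : ℕ} {V : Fin (k + 1) → ValuationSubring F} {j : F₀}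
  {d : ℕ → F₀ →ₐ[K₀] F} {Eα : Subfield F} {Nα Nβ N₀ : F →* F}

/-- **NORM**: at a crossing point the three norms preserve the units. -/
theorem cross_norms (hq : 0 < q) (T : Top A₀ q k V j d Eα Nα Nβ N₀)
    (𝔫 : Ideal (chart A₀.toSubring (d 0 j))) [𝔫.IsMaximal]
    (hall : ∀ c, Through (locSub (chart A₀.toSubring (d 0 j)) 𝔫) (V c)) :
    (∀ ε : F, RUnit (locSub (chart A₀.toSubring (d 0 j)) 𝔫) ε →
      RUnit (locSub (chart A₀.toSubring (d 0 j)) 𝔫) (Nα ε)) ∧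
    (∀ ε : F, RUnit (locSub (chart A₀.toSubring (d 0 j)) 𝔫) ε →
      RUnit (locSub (chart A₀.toSubring (d 0 j)) 𝔫) (Nβ ε)) ∧
    (∀ ε : F, RUnit (locSub (chart A₀.toSubring (d 0 j)) 𝔫) ε →
      RUnit (locSub (chart A₀.toSubring (d 0 j)) 𝔫) (N₀ ε)) := by
  obtain ⟨cα, hα⟩ := T.radα
  obtain ⟨cβ, hβ⟩ := T.radβ
  obtain ⟨c₀, h₀⟩ := T.tie_resα
  exact ⟨normUnit_of_rad hq hα _ T.normα_chart 𝔫 (hall cα).le,
    normUnit_of_rad hq hβ _ T.normβ_chart 𝔫 (hall cβ).le,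
    normUnit_of_tie hq hα T.normα_mem T.tieα h₀ _ T.normα_chart T.norm₀_chart 𝔫 (hall cα).le
      (hall c₀).le⟩

end Main

end Fermat.Agent.S45.Pts

end
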