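/-
S45, block PTS (owner helper219): THE ASSEMBLY.  `pts_of_nc`: the fields `pts₁`, `pts₂` of `ModelK` from the interface of
`Pts/Defs.lean` and the node NC (non-cuspidal points) as a hypothesis.  All the other nodes are imported:
PRE (helper103), THR (helper219), NORM (helper169), GEN (helper88), CUSP (helper135, helper86, helper38).
-/
import Fermat.Agent.S45.Pts.Defs
import Fermat.Agent.S45.Pts.Pre.PtBase
import Fermat.Agent.S45.Pts.Through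
import Fermat.Agent.S45.Pts.Norm
import Fermat.Agent.S45.Pts.Cusp.Main

set_option autoImplicit false

noncomputable section

namespace Fermat.Agent.S45.Pts

open Fermat.Agent.S18 Fermat.Agent.S36.BP Fermat.Agent.BAD.Model Fermat.Agent.S45.K

variable {K₀ F₀ F₁ F₂ F : Type*} [Field K₀] [Field F₀] [Field F₁] [Field F₂] [Field F]
  [Algebra K₀ F₀] [Algebra K₀ F₁] [Algebra K₀ F₂] [Algebra K₀ F]
variable {A₀ : ValuationSubring K₀} {q k : ℕ} {al0 be0 : F₀ →ₐ[K₀] F₁} {al1 be1 : F₁ →ₐ[K₀] F₂}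
  {V0 : ValuationSubring F₀} {V1 : Fin 2 → ValuationSubring F₁} {V2 : Fin 3 → ValuationSubring F₂}
  {V : Fin (k + 1) → ValuationSubring F} {j x₀ t : F₀} {x₁ : F₁} {w1 : F₁ →ₐ[K₀] F₁}
  {cf : ℕ → ℕ → K₀} {κ : F₂} {e : Fin 4 → F₂}
  {d : ℕ → F₀ →ₐ[K₀] F} {st : ℕ → F₁ →ₐ[K₀] F} {w : ℕ → F₂ →ₐ[K₀] F}
  {Eα : Subfield F} {Nα Nβ N₀ : F →* F}

/-- the fields `pts₁`, `pts₂` of `ModelK`, from the non-cuspidal points. -/
theorem pts_of_nc (hk : 2 ≤ k) (P : PreModelK A₀ q (d 0 j) V)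
    (G : Geo A₀ k al0 be0 al1 be1 V0 V1 V2 V j d st w) (b0 : B0 A₀ q V0 j x₀ t F)
    (b1 : B1 A₀ q al0 be0 V1 j t x₁ w1 cf) (b2 : B2 q al0 be0 al1 be1 V2 j t x₁ κ e)
    (T : Top A₀ q k V j d Eα Nα Nβ N₀)
    (hNC : ∀ R : Subring F, PtBaseK A₀ q V R → d 0 j ∈ R →
      (∀ c, LeLoc R (V c) → Through R (V c)) →
      ((∀ c, Through R (V c)) → (∀ ε : F, RUnit R ε → RUnit R (Nα ε)) ∧
        (∀ ε : F, RUnit R ε → RUnit R (Nβ ε)) ∧ (∀ ε : F, RUnit R ε → RUnit R (N₀ ε))) →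
      PtHypK V Nα Nβ N₀ R) :
    (∀ (𝔫 : Ideal (chart A₀.toSubring (d 0 j))) [𝔫.IsMaximal],
      (q : chart A₀.toSubring (d 0 j)) ∈ 𝔫 →
      PtHypK V Nα Nβ N₀ (locSub (chart A₀.toSubring (d 0 j)) 𝔫)) ∧
    (∀ (𝔫 : Ideal (chart A₀.toSubring (d 0 j)⁻¹)) [𝔫.IsMaximal],
      (q : chart A₀.toSubring (d 0 j)⁻¹) ∈ 𝔫 →
      PtHypK V Nα Nβ N₀ (locSub (chart A₀.toSubring (d 0 j)⁻¹) 𝔫)) := by
  have h₁ : ∀ (𝔫 : Ideal (chart A₀.toSubring (d 0 j))) [𝔫.IsMaximal],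
      (q : chart A₀.toSubring (d 0 j)) ∈ 𝔫 →
      PtHypK V Nα Nβ N₀ (locSub (chart A₀.toSubring (d 0 j)) 𝔫) := by
    intro 𝔫 _ h𝔫
    have hR := P.ptBaseK 𝔫 h𝔫
    have hj : d 0 j ∈ locSub (chart A₀.toSubring (d 0 j)) 𝔫 := le_locSub (self_mem_chart _)
    exact hNC _ hR hj (fun c hL => through_of_leLoc G b0 T hR.isPt (Or.inl hj) c hL)
      (fun hall => cross_norms P.base.prime.pos T 𝔫 hall)
  refine ⟨h₁, ?_⟩
  intro 𝔫 _ h𝔫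
  by_cases hx : (⟨(d 0 j)⁻¹, self_mem_chart _⟩ : chart A₀.toSubring (d 0 j)⁻¹) ∈ 𝔫
  · have hR := P.ptBaseK_inv 𝔫 h𝔫
    have hs : (d 0 j)⁻¹ ∈ rad (locSub (chart A₀.toSubring (d 0 j)⁻¹) 𝔫) := coe_mem_rad_locSub hx
    exact CuspInc.ptHypK_cusp hk P.base G b0 b1 b2 T hR hs
      (fun c hL => through_of_leLoc G b0 T hR.isPt (Or.inr hs) c hL)
  · obtain ⟨𝔪, h𝔪, hq, e⟩ := P.exists_point_of_inv_notMem 𝔫 h𝔫 hx
    rw [← e]
    exact h₁ 𝔪 hq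

end Fermat.Agent.S45.Pts

end
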