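/-
S45, project CARAYOL-K, block PTS (helper145): the combinatorics of the incidence.

`T a` = "the component `F^a V^(k-a)` passes through the point" (`0 ≤ a ≤ k`).  For every window
`i` (`1 ≤ i < k`, the steps `i`, `i + 1`) the level `q²` model says: among
`A i = (T meets [0, i-1])` (window type `VV`), `T i` (window type `FV`),
`C i = (T meets [i+1, k])` (window type `FF`) at most one holds, or all three hold.
Then `T` has at most one element or `T` is everything.
-/
import Mathlib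

set_option autoImplicit false

namespace Fermat.Agent.S45.Pts

/-- the window condition -/
def WinCond (k : ℕ) (T : ℕ → Prop) (i : ℕ) : Prop :=
  ((¬ (∃ a, a < i ∧ T a) ∧ ¬ T i) ∨ (¬ (∃ a, a < i ∧ T a) ∧ ¬ (∃ a, i < a ∧ a ≤ k ∧ T a)) ∨
    (¬ T i ∧ ¬ (∃ a, i < a ∧ a ≤ k ∧ T a))) ∨
  ((∃ a, a < i ∧ T a) ∧ T i ∧ (∃ a, i < a ∧ a ≤ k ∧ T a))

/-- all three window types occur -/
def WinAll (k : ℕ) (T : ℕ → Prop) (i : ℕ) : Prop :=
  (∃ a, a < i ∧ T a) ∧ T i ∧ (∃ a, i < a ∧ a ≤ k ∧ T a)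

theorem WinCond.all_of_AM {k : ℕ} {T : ℕ → Prop} {i : ℕ} (h : WinCond k T i)
    (hA : ∃ a, a < i ∧ T a) (hM : T i) : WinAll k T i := by
  rcases h with (h | h | h) | h
  · exact absurd hA h.1
  · exact absurd hA h.1
  · exact absurd hM h.1
  · exact h

theorem WinCond.all_of_AC {k : ℕ} {T : ℕ → Prop} {i : ℕ} (h : WinCond k T i)
    (hA : ∃ a, a < i ∧ T a) (hC : ∃ a, i < a ∧ a ≤ k ∧ T a) : WinAll k T i := by
  rcases h with (h | h | h) | h
  · exact absurd hA h.1
  · exact absurd hA h.1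
  · exact absurd hC h.2
  · exact h

theorem WinCond.all_of_MC {k : ℕ} {T : ℕ → Prop} {i : ℕ} (h : WinCond k T i)
    (hM : T i) (hC : ∃ a, i < a ∧ a ≤ k ∧ T a) : WinAll k T i := by
  rcases h with (h | h | h) | h
  · exact absurd hM h.2
  · exact absurd hC h.2
  · exact absurd hM h.1
  · exact h

theorem winAll_succ {k : ℕ} {T : ℕ → Prop} (h : ∀ i, 1 ≤ i → i < k → WinCond k T i) {i : ℕ}
    (hi : WinAll k T i) (hik : i + 1 < k) : WinAll k T (i + 1) := by
  obtain ⟨-, hM, a, ha, hak, hTa⟩ := hi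
  have hA : ∃ a, a < i + 1 ∧ T a := ⟨i, Nat.lt_succ_self i, hM⟩
  rcases Nat.eq_or_lt_of_le (Nat.succ_le_of_lt ha) with e | e
  · exact (h (i + 1) (Nat.succ_le_succ (Nat.zero_le i)) hik).all_of_AM hA (by
      have : a = i + 1 := e.symm
      rwa [← this])
  · exact (h (i + 1) (Nat.succ_le_succ (Nat.zero_le i)) hik).all_of_AC hA ⟨a, e, hak, hTa⟩

theorem winAll_pred {k : ℕ} {T : ℕ → Prop} (h : ∀ i, 1 ≤ i → i < k → WinCond k T i) {i : ℕ}
    (hi : WinAll k T (i + 1)) (hik : i + 1 < k) (hi1 : 1 ≤ i) : WinAll k T i := by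
  obtain ⟨⟨a, ha, hTa⟩, hM, -⟩ := hi
  have hC : ∃ a, i < a ∧ a ≤ k ∧ T a := ⟨i + 1, Nat.lt_succ_self i, hik.le, hM⟩
  rcases Nat.eq_or_lt_of_le (Nat.le_of_lt_succ ha) with e | e
  · exact (h i hi1 (by omega)).all_of_MC (by rwa [← e]) hC
  · exact (h i hi1 (by omega)).all_of_AC ⟨a, e, hTa⟩ hC

theorem winAll_all {k : ℕ} {T : ℕ → Prop} (h : ∀ i, 1 ≤ i → i < k → WinCond k T i) {i : ℕ}
    (hi1 : 1 ≤ i) (hik : i < k) (hi : WinAll k T i) : ∀ j, 1 ≤ j → j < k → WinAll k T j := by
  have up : ∀ d, i + d < k → WinAll k T (i + d) := by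
    intro d
    induction d with
    | zero => intro _; exact hi
    | succ d ih =>
      intro hd
      exact winAll_succ h (ih (by omega)) hd
  have down : ∀ d, d < i → WinAll k T (i - d) := by
    intro d
    induction d with
    | zero => intro _; exact hi
    | succ d ih =>
      intro hd
      have h1 := ih (by omega)
      have e : i - d = (i - (d + 1)) + 1 := by omega
      rw [e] at h1
      exact winAll_pred h h1 (by omega) (by omega)
  intro j hj1 hjk
  rcases le_total i j with hij | hij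
  · have := up (j - i) (by omega)
    rwa [Nat.add_sub_cancel' hij] at this
  · have := down (i - j) (by omega)
    rwa [Nat.sub_sub_self hij] at this

/-- **Incidence, combinatorial part.** -/
theorem singleton_or_all {k : ℕ} (T : ℕ → Prop) (h : ∀ i, 1 ≤ i → i < k → WinCond k T i) :
    (∃ c, ∀ a ≤ k, a ≠ c → ¬ T a) ∨ ∀ a ≤ k, T a := by
  classical
  by_cases hex : ∃ a a', a < a' ∧ a' ≤ k ∧ T a ∧ T a'
  · right
    obtain ⟨a, a', haa', ha'k, hTa, hTa'⟩ := hex
    by_cases hk : k = 1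
    · subst hk
      have h0 : a = 0 := by omega
      have h1 : a' = 1 := by omega
      subst h0 h1
      intro b hb
      rcases Nat.le_one_iff_eq_zero_or_eq_one.1 hb with rfl | rfl
      · exact hTa
      · exact hTa'
    -- a window on which all three types occur
    have hwin : ∃ i, 1 ≤ i ∧ i < k ∧ WinAll k T i := by
      by_cases h1 : a + 1 < k
      · refine ⟨a + 1, by omega, h1, ?_⟩
        have hA : ∃ b, b < a + 1 ∧ T b := ⟨a, Nat.lt_succ_self a, hTa⟩
        rcases Nat.eq_or_lt_of_le (Nat.succ_le_of_lt haa') with e | e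
        · exact (h (a + 1) (by omega) h1).all_of_AM hA (by
            have : a' = a + 1 := e.symm
            rwa [← this])
        · exact (h (a + 1) (by omega) h1).all_of_AC hA ⟨a', e, ha'k, hTa'⟩
      · refine ⟨a, by omega, by omega, ?_⟩
        exact (h a (by omega) (by omega)).all_of_MC hTa ⟨a', haa', ha'k, hTa'⟩
    obtain ⟨i, hi1, hik, hi⟩ := hwin
    have hall := winAll_all h hi1 hik hi
    intro b hb
    by_cases hb0 : b = 0
    · subst hb0
      obtain ⟨⟨c, hc, hTc⟩, -, -⟩ := hall 1 le_rfl (by omega)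
      have : c = 0 := by omega
      rwa [← this]
    by_cases hbk : b = k
    · subst hbk
      obtain ⟨-, -, c, hc, hck, hTc⟩ := hall (b - 1) (by omega) (by omega)
      have : c = b := by omega
      rwa [← this]
    · exact (hall b (by omega) (by omega)).2.1
  · left
    by_cases hT : ∃ c, c ≤ k ∧ T c
    · obtain ⟨c, hck, hTc⟩ := hT
      refine ⟨c, fun a hak hac hTa => hex ?_⟩
      rcases lt_or_gt_of_ne hac with hlt | hlt
      · exact ⟨a, c, hlt, hck, hTa, hTc⟩
      · exact ⟨c, a, hlt, hak, hTc, hTa⟩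
    · exact ⟨0, fun a hak _ hTa => hT ⟨a, hak, hTa⟩⟩

end Fermat.Agent.S45.Pts
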