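/-
S45, block PTS (owner helper219; this file: helper163).  THE BLOCK IS CLOSED:
`pts_of` (the fields `pts₁`, `pts₂` of `ModelK` from the interface of `Pts/Defs.lean`) and `nodePts : Ind.NodePts`.
-/
import Fermat.Agent.S45.Pts.MainOf
import Fermat.Agent.S45.Pts.NC.Main
import Fermat.Agent.S45.Ind.Defs

set_option autoImplicit false

noncomputable section

namespace Fermat.Agent.S45.Pts

open Fermat.Agent.S18 Fermat.Agent.S36.BP Fermat.Agent.BAD.Model Fermat.Agent.S45.K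

variable {K₀ F₀ F₁ F₂ F : Type*} [Field K₀] [Field F₀] [Field F₁] [Field F₂] [Field F]
  [Algebra K₀ F₀] [Algebra K₀ F₁] [Algebra K₀ F₂] [Algebra K₀ F]
variable {A₀ : ValuationSubring K₀} {q k : ℕ} {al0 be0 : F₀ →ₐ[K₀] F₁} {al1 be1 : F₁ →ₐ[K₀] F₂}
  {V0 : ValuationSubring F₀} {V1 : Fin 2 → ValuationSubring F₁} {V2 : Fin 3 → ValuationSubring F₂}
  {V : Fin (k + 1) → ValuationSubring F} {j x₀ t : F₀} {x₁ : F₁} {w1 : F₁ →ₐ[K₀] F₁}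
  {cf : ℕ → ℕ → K₀} {κ : F₂} {e : Fin 4 → F₂}
  {d : ℕ → F₀ →ₐ[K₀] F} {st : ℕ → F₁ →ₐ[K₀] F} {w : ℕ → F₂ →ₐ[K₀] F}
  {Eα : Subfield F} {Nα Nβ N₀ : F →* F}

/-- **The fields `pts₁`, `pts₂` of `ModelK`.** -/
theorem pts_of (hk : 2 ≤ k) (P : PreModelK A₀ q (d 0 j) V)
    (G : Geo A₀ k al0 be0 al1 be1 V0 V1 V2 V j d st w) (b0 : B0 A₀ q V0 j x₀ t F)
    (b1 : B1 A₀ q al0 be0 V1 j t x₁ w1 cf) (b2 : B2 q al0 be0 al1 be1 V2 j t x₁ κ e)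
    (T : Top A₀ q k V j d Eα Nα Nβ N₀) :
    (∀ (𝔫 : Ideal (chart A₀.toSubring (d 0 j))) [𝔫.IsMaximal],
      (q : chart A₀.toSubring (d 0 j)) ∈ 𝔫 →
      PtHypK V Nα Nβ N₀ (locSub (chart A₀.toSubring (d 0 j)) 𝔫)) ∧
    (∀ (𝔫 : Ideal (chart A₀.toSubring (d 0 j)⁻¹)) [𝔫.IsMaximal],
      (q : chart A₀.toSubring (d 0 j)⁻¹) ∈ 𝔫 →
      PtHypK V Nα Nβ N₀ (locSub (chart A₀.toSubring (d 0 j)⁻¹) 𝔫)) :=
  pts_of_nc hk P G b0 b1 b2 T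
    (fun _ hR hx hT hN => ptHypK_nonCusp hk P.base G b0 b1 b2 T hR hx hT hN)

/-- **Node PTS.** -/
theorem nodePts : Ind.NodePts := by
  intro K₀ F₀ F₁ F₂ F _ _ _ _ _ _ _ _ _ A₀ q k al0 be0 al1 be1 V0 V1 V2 V j x₀ t x₁ w1 cf κ e d st w
    Eα Nα Nβ N₀ hk P G b0 b1 b2 T
  exact pts_of (by omega) P G b0 b1 b2 T

end Fermat.Agent.S45.Pts

end
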