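/-
S45, project CARAYOL-K, block PTS, node P4 (helper86): cuspidal points, the junction `F V`.

Generalisation of `BAD/Model/Cusp/Mid.lean : Type1.unit` (level `q²`) to a point `R` which lies on ONE vertical
component `W` only, of arbitrary multiplicity: `s = 1/j(q^(a-1) z)`, `s' = 1/j(q^a z)`, `s'' = 1/j(q^(a+1) z)`,
`z = s / s'' - 1`.  Then `z ∈ R`, `W z < 1` and `z ^ (q - 1) / q` is a unit of `R`.
The only input on the multiplicity is `W z ^ (q - 1) ≤ W q`.
-/
import Mathlib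
import Fermat.Agent.S36.BP.Rad
import Fermat.Agent.S36.BP.Approx
import Fermat.Agent.BAD.Model.Defs
import Fermat.Agent.BAD.Model.Cusp.Eps
import Fermat.Agent.BAD.Model.Cusp.MemRad
import Fermat.Agent.BAD.Model.Cusp.Identity
import Fermat.Agent.BAD.Model.Cusp.Mid

set_option autoImplicit false

noncomputable section

namespace Fermat.Agent.S45.Pts

open Fermat.Agent.S18 Fermat.Agent.S36.BP Fermat.Agent.BAD.Model IntermediateField Polynomial

variable {K₀ F : Type*} [Field K₀] [Field F] [Algebra K₀ F]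
variable {A₀ : ValuationSubring K₀} {q : ℕ} {R : Subring F} {c : ℕ → ℕ → K₀} {s s' s'' : F}

theorem cusp_mid_unit (hq : q.Prime) (hP : IsPt A₀ R) {W : ValuationSubring F}
    (hle : ∀ r ∈ R, r ∈ W) (hqepW : ∀ y : F, (q : F) * y ∈ R → y ∈ W → y ∈ R)
    (hqF : (q : F) ≠ 0) (hvq : W.valuation (q : F) < 1)
    (hc : ∀ a b, c a b ∈ A₀) (hs0 : s ≠ 0) (hs'0 : s' ≠ 0) (hs''0 : s'' ≠ 0) (hne : s ≠ s'')
    (rel : Rel q c s s') (rel'' : Rel q c s'' s') (hunit : W.valuation s = 1)
    (cong1 : W.valuation (s ^ q / s' - 1) < 1) (cong1' : W.valuation (s'' ^ q / s' - 1) < 1)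
    (hs : s ∈ rad R) (hτ' : RUnit R (s ^ q / s')) (hσ : RUnit R (s'' ^ q / s'))
    (hram : W.valuation (s / s'' - 1) < 1 →
      W.valuation (s / s'' - 1) ^ (q - 1) ≤ W.valuation (q : F)) :
    s / s'' - 1 ∈ R ∧ W.valuation (s / s'' - 1) < 1 ∧
      RUnit R ((s / s'' - 1) ^ (q - 1) / (q : F)) := by
  have hq2 : 2 ≤ q := hq.two_le
  have hq0 : q ≠ 0 := by omega
  have hs' : s' ∈ rad R := rel.mem_rad hP hc hs
  have hs'' : s'' ∈ rad R := rel''.symm.mem_rad hP (fun a b => hc b a) hs'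
  have hvq0 : W.valuation (q : F) ≠ 0 := (Valuation.ne_zero_iff _).mpr hqF
  -- `y = s / s''` is a unit
  have hyq : (s / s'') ^ q = (s ^ q / s') / (s'' ^ q / s') := by
    rw [div_pow]
    field_simp
  have hyU : RUnit R (s / s'') := hP.runit_of_pow hq0 (hyq ▸ hτ'.div hσ)
  have hzR : s / s'' - 1 ∈ R := R.sub_mem hyU.mem R.one_mem
  -- the binomial polynomial
  obtain ⟨U, hU, hU0⟩ := exists_binomial_poly hq
  have hu : (s / s'') ^ q - 1 = (s / s'' - 1) *
      ((s / s'' - 1) ^ (q - 1) + (q : F) * aeval (s / s'' - 1) U) := by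
    have h := congrArg (aeval (s / s'' - 1)) hU
    simp only [map_sub, map_pow, map_add, map_one, aeval_X, map_mul, eq_intCast,
      Int.cast_natCast, map_natCast] at h
    rw [← h]
    congr 2
    ring
  have huR : aeval (s / s'' - 1) U ∈ R := aeval_int_mem U hzR
  -- `z` lies in the maximal ideal of `W`
  have hyq1 : W.valuation ((s / s'') ^ q - 1) < 1 := by
    have h : Cg W ((s ^ q / s') / (s'' ^ q / s')) (1 / 1) :=
      Cg.div cong1 cong1' (by simp) (by simp)
    rw [hyq]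
    simpa [Cg] using h
  have hzlt : W.valuation (s / s'' - 1) < 1 := by
    by_contra hcon
    have h1 : W.valuation (s / s'' - 1) = 1 :=
      le_antisymm (mem_iff_val_le.1 (hle _ hzR)) (not_lt.1 hcon)
    have h2 : (s / s'' - 1) ^ q = ((s / s'') ^ q - 1) -
        (q : F) * ((s / s'' - 1) * aeval (s / s'' - 1) U) := by
      rw [hu]
      have : (s / s'' - 1) ^ q = (s / s'' - 1) * (s / s'' - 1) ^ (q - 1) := by
        rw [← pow_succ', Nat.sub_add_cancel (by omega)]
      rw [this]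
      ring
    have h3 : W.valuation ((s / s'' - 1) ^ q) < 1 := by
      rw [h2]
      refine lt_of_le_of_lt (Valuation.map_sub _ _ _) (max_lt hyq1 ?_)
      rw [map_mul]
      exact lt_of_le_of_lt (mul_le_of_le_one_right' (mem_iff_val_le.1
        (hle _ (R.mul_mem hzR huR)))) hvq
    rw [map_pow, h1, one_pow] at h3
    exact lt_irrefl _ h3
  have hzrad : s / s'' - 1 ∈ rad R := mem_rad_of_val_lt hle hzR hzlt
  -- the key identity
  obtain ⟨D₀, hD₀R, hD₀⟩ := exists_eps_sub_eps (q := q) (c := c)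
    (fun a b => hP.const_mem _ (hc a b)) hs.1 hs''.1 hs'.1
  have key := key_identity hs0 hs'0 hs''0 hne rel rel'' hD₀ hu
  -- `ω`
  have hρ : s' / s ∈ R := by
    have : s' / s = s ^ (q - 1) * (s ^ q / s')⁻¹ := by
      have h1 : s ^ q = s ^ (q - 1) * s := by rw [← pow_succ, Nat.sub_add_cancel (by omega)]
      rw [h1]
      field_simp
    rw [this]
    exact R.mul_mem (R.pow_mem hs.1 _) hτ'.inv_mem
  set ω : F := (s'' ^ q / s')⁻¹ * ((s' / s) ^ 2 * s' ^ (q - 2) - (s / s'')⁻¹ * D₀) with hω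
  have hωR : ω ∈ R :=
    R.mul_mem hσ.inv_mem (R.sub_mem (R.mul_mem (R.pow_mem hρ 2) (R.pow_mem hs'.1 _))
      (R.mul_mem hyU.inv_mem hD₀R))
  have hsω : (s / s'' - 1) ^ (q - 1) + (q : F) * aeval (s / s'' - 1) U = s * ω := by
    have h1 : s * ω = (s'' ^ q / s')⁻¹ * (s' ^ q / s - s'' * D₀) := by
      have h2 : s' ^ q = s' ^ 2 * s' ^ (q - 2) := by rw [← pow_add]; congr 1; omega
      rw [hω, h2]
      field_simp
    rw [h1, ← key, inv_mul_cancel_left₀ hσ.ne_zero]
  -- `ω / q ∈ R`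
  have hωq : ω / (q : F) ∈ W := by
    rw [mem_iff_val_le, map_div₀, div_le_one₀ (zero_lt_iff.mpr hvq0)]
    have h1 : W.valuation ω = W.valuation (s * ω) := by
      rw [W.valuation.map_mul s ω, hunit, one_mul]
    rw [h1, ← hsω]
    refine le_trans (Valuation.map_add _ _ _) (max_le ?_ ?_)
    · rw [map_pow]
      exact hram hzlt
    · rw [map_mul]
      exact mul_le_of_le_one_right' (mem_iff_val_le.1 (hle _ huR))
  have hωqR : ω / (q : F) ∈ R := by
    apply hqepW
    · rw [mul_div_cancel₀ _ hqF]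
      exact hωR
    · exact hωq
  -- conclusion
  refine ⟨hzR, hzlt, ?_⟩
  have hη : (s / s'' - 1) ^ (q - 1) / (q : F) - (-1) =
      s * (ω / (q : F)) + -(aeval (s / s'' - 1) U - 1) := by
    have : (s / s'' - 1) ^ (q - 1) = s * ω - (q : F) * aeval (s / s'' - 1) U := by
      rw [← hsω]; ring
    rw [this]
    field_simp
    ring
  have hcr : Cr R ((s / s'' - 1) ^ (q - 1) / (q : F)) (-1) := by
    unfold Cr
    rw [hη]
    refine hP.add_rad _ ?_ _ (neg_mem_rad (aeval_int_sub_mem_rad U hU0 hzrad))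
    rw [mul_comm]
    exact mul_mem_rad hωqR hs
  exact hP.runit_of_cr hcr (RUnit.one R).neg

end Fermat.Agent.S45.Pts

end
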