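/-
S45, project CARAYOL-K, block PTS, node P4 (helper86): **THE CUSPIDAL POINTS OF LEVEL `q^k`.**

`s i = 1 / j(q^i z)` (`i ≤ k`).  Neighbours are related by the modular equation near the cusp
(`BAD.Model.Rel q c (s i) (s (i+1))`, both orders).  The vertical component `V x` has the type `F^(a x) V^(k - a x)`:
`s_i^q ≡ s_(i+1)` on the steps `i < a x`, `s_(i+1)^q ≡ s_i` on the steps `a x ≤ i < k`.

At a closed point `R` with `s 0 ∈ rad R` every step is of type `F` or `V` (`Rel.dichotomy`), so EXACTLY ONE component passes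
through `R`, and its prime is generated by `q` (`a x = 0, k`) or by
`z_m = s_(a-m) / s_(a+m) - 1 = j(q^(a+m) z) / j(q^(a-m) z) - 1`, `m = min a (k - a)`:
`z_1^(q-1) / q` is a unit of `R` (`cusp_mid_unit`), `z_(i+1)^q / z_i ≡ 1` (TAB / GEN), chain lemma of helper145.

No lower level point, no norm, no induction on `k`.   `ptHypK_of_cusp`.
-/
import Fermat.Agent.S45.Pts.CuspMid
import Fermat.Agent.S45.Pts.Chain
import Fermat.Agent.S45.K.Defs
import Fermat.Agent.BAD.Model.Cusp.Dichotomy

set_option autoImplicit false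

noncomputable section

namespace Fermat.Agent.S45.Pts

open Fermat.Agent.S18 Fermat.Agent.S36.BP Fermat.Agent.S36.BP.Build Fermat.Agent.BAD.Model
  Fermat.Agent.S45.K

variable {K₀ F : Type*} [Field K₀] [Field F] [Algebra K₀ F]

/-- **The input of the cusp analysis at level `q^k`**: the chain `s i = 1 / j(q^i z)` and the types of the vertical
valuations (`a x` = number of letters `F`). -/
structure CuspChain (A₀ : ValuationSubring K₀) (q k : ℕ) {κ : Type*} (V : κ → ValuationSubring F)
    (a : κ → ℕ) (c : ℕ → ℕ → K₀) (s : ℕ → F) : Prop where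
  coeff_mem : ∀ i j, c i j ∈ A₀
  coeff_unit : A₀.valuation (c 0 0) = 1
  ne : ∀ i ≤ k, s i ≠ 0
  rel : ∀ i < k, Rel q c (s i) (s (i + 1))
  rel' : ∀ i < k, Rel q c (s (i + 1)) (s i)
  a_le : ∀ x, a x ≤ k
  a_inj : Function.Injective a
  q_lt : ∀ x, (V x).valuation (q : F) < 1
  unit : ∀ x, ∀ i ≤ k, (V x).valuation (s i) = 1
  congF : ∀ x i, i < a x → (V x).valuation (s i ^ q / s (i + 1) - 1) < 1
  congV : ∀ x i, a x ≤ i → i < k → (V x).valuation (s (i + 1) ^ q / s i - 1) < 1

/-- `z_i = s_(a-i) / s_(a+i) - 1 = j(q^(a+i) z) / j(q^(a-i) z) - 1`. -/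
def cuspZ (s : ℕ → F) (a i : ℕ) : F := s (a - i) / s (a + i) - 1

/-- **The uniformisers** (output of TAB / GEN with `g = j`). -/
structure CuspUnif (q k : ℕ) {κ : Type*} (V : κ → ValuationSubring F) (a : κ → ℕ) (s : ℕ → F) :
    Prop where
  unif_end : ∀ x, (a x = 0 ∨ a x = k) → IsUnif (V x) (q : F)
  ram1 : ∀ x, 0 < a x → a x < k →
    (V x).valuation (cuspZ s (a x) 1) ^ (q - 1) ≤ (V x).valuation (q : F)
  link : ∀ x i, 1 ≤ i → i < a x → i < k - a x →
    (V x).valuation (cuspZ s (a x) (i + 1) ^ q / cuspZ s (a x) i - 1) < 1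
  unif_mid : ∀ x, 0 < a x → a x < k → IsUnif (V x) (cuspZ s (a x) (min (a x) (k - a x)))

variable {A₀ : ValuationSubring K₀} {q k : ℕ} {κ : Type*} {V : κ → ValuationSubring F}
  {a : κ → ℕ} {c : ℕ → ℕ → K₀} {s : ℕ → F} {R : Subring F}

theorem CuspChain.mem_rad (D : CuspChain A₀ q k V a c s) (hR : IsPt A₀ R) (hs : s 0 ∈ rad R) :
    ∀ i ≤ k, s i ∈ rad R := by
  intro i
  induction i with
  | zero => intro _; exact hs
  | succ i ih =>
    intro hi
    exact (D.rel i (by omega)).mem_rad hR D.coeff_mem (ih (by omega))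

/-- the steps of a component through `R` -/
theorem CuspChain.stepF (D : CuspChain A₀ q k V a c s) (hq : 2 ≤ q) (hR : IsPt A₀ R)
    (hs : s 0 ∈ rad R) {x : κ} (hx : Through R (V x)) {i : ℕ} (hi : i < a x) :
    RUnit R (s i ^ q / s (i + 1)) ∧ s (i + 1) ^ q / s i ∈ rad R := by
  have hik : i < k := lt_of_lt_of_le hi (D.a_le x)
  rcases (D.rel i hik).dichotomy hR hq D.coeff_mem D.coeff_unit (D.ne i hik.le) (D.ne (i + 1) hik)
    (D.mem_rad hR hs i hik.le) with h | h
  · exact h
  · exact absurd (away_of_mem_rad hR h.2 (D.congF x i hi)) (not_away_of_through hx)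

theorem CuspChain.stepV (D : CuspChain A₀ q k V a c s) (hq : 2 ≤ q) (hR : IsPt A₀ R)
    (hs : s 0 ∈ rad R) {x : κ} (hx : Through R (V x)) {i : ℕ} (hi : a x ≤ i) (hik : i < k) :
    RUnit R (s (i + 1) ^ q / s i) ∧ s i ^ q / s (i + 1) ∈ rad R := by
  rcases (D.rel i hik).dichotomy hR hq D.coeff_mem D.coeff_unit (D.ne i hik.le) (D.ne (i + 1) hik)
    (D.mem_rad hR hs i hik.le) with h | h
  · exact absurd (away_of_mem_rad hR h.2 (D.congV x i hi hik)) (not_away_of_through hx)
  · exact h

/-- **only one component passes through a cuspidal point** -/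
theorem CuspChain.away (D : CuspChain A₀ q k V a c s) (hq : 2 ≤ q) (hR : IsPt A₀ R)
    (hs : s 0 ∈ rad R) {x : κ} (hx : Through R (V x)) : ∀ y, y ≠ x → Away R (V y) := by
  intro y hy
  rcases lt_or_gt_of_ne (fun h => hy (D.a_inj h)) with h | h
  · exact away_of_mem_rad hR (D.stepF hq hR hs hx h).2
      (D.congV y (a y) le_rfl (lt_of_lt_of_le h (D.a_le x)))
  · exact away_of_mem_rad hR (D.stepV hq hR hs hx le_rfl (lt_of_lt_of_le h (D.a_le y))).2
      (D.congF y (a x) h)

/-- `s_(a-i) / s_(a+i)` is a unit of `R` -/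
theorem CuspChain.runit_div (D : CuspChain A₀ q k V a c s) (hq : 2 ≤ q) (hR : IsPt A₀ R)
    (hs : s 0 ∈ rad R) {x : κ} (hx : Through R (V x)) :
    ∀ i, i ≤ a x → i ≤ k - a x → RUnit R (s (a x - i) / s (a x + i)) := by
  intro i
  induction i with
  | zero =>
    intro _ _
    rw [Nat.sub_zero, Nat.add_zero, div_self (D.ne _ (D.a_le x))]
    exact RUnit.one R
  | succ i ih =>
    intro h1 h2
    have hak := D.a_le x
    have e1 : a x - (i + 1) + 1 = a x - i := by omega
    have hF := (D.stepF hq hR hs hx (i := a x - (i + 1)) (by omega)).1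
    rw [e1] at hF
    have hV := (D.stepV hq hR hs hx (i := a x + i) (by omega) (by omega)).1
    have n1 : s (a x - (i + 1)) ≠ 0 := D.ne _ (by omega)
    have n2 : s (a x - i) ≠ 0 := D.ne _ (by omega)
    have n3 : s (a x + i) ≠ 0 := D.ne _ (by omega)
    have n4 : s (a x + i + 1) ≠ 0 := D.ne _ (by omega)
    refine hR.runit_of_pow (n := q) (by omega) ?_
    have e : (s (a x - (i + 1)) / s (a x + (i + 1))) ^ q =
        (s (a x - (i + 1)) ^ q / s (a x - i)) / (s (a x + i + 1) ^ q / s (a x + i)) *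
          (s (a x - i) / s (a x + i)) := by
      rw [← Nat.add_assoc, div_pow]
      field_simp
    rw [e]
    exact (hF.div hV).mul (ih (by omega) (by omega))

/-- **Cuspidal points of level `q^k`.** -/
theorem ptHypK_of_cusp (hq : q.Prime) (hR : IsPt A₀ R)
    (hta : ∀ x, Through R (V x) ∨ Away R (V x)) (hqep : LocQep q V R) (hq0 : (q : F) ≠ 0)
    (hqR : (q : F) ∈ rad R) (D : CuspChain A₀ q k V a c s) (U : CuspUnif q k V a s)
    (hs : s 0 ∈ rad R) (Nα Nβ N₀ : F →* F) : PtHypK V Nα Nβ N₀ R := by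
  have hq2 : 2 ≤ q := hq.two_le
  obtain ⟨x, hx⟩ := exists_through hqep hq0 hqR
  have haway := D.away hq2 hR hs hx
  refine ⟨hta, ⟨x, hx, ?_⟩, Or.inl ⟨x, haway⟩⟩
  by_cases hend : a x = 0 ∨ a x = k
  · have hU := U.unif_end x hend
    exact princ_of hqep x hqR.1 hq0 (k := 1) (by rw [pow_one, div_self hq0]; exact R.one_mem)
      (approx_val_unif_lt_one hU) (fun _ hy => approx_val_le_unif hU hy)
      (fun y hy ht => absurd (haway y hy) (not_away_of_through ht))
  · have hak := D.a_le x
    have hA0 : 0 < a x := by omega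
    have hAk : a x < k := by omega
    set m := min (a x) (k - a x) with hm
    have hm1 : 1 ≤ m := by omega
    have hma : m ≤ a x := by omega
    have hmk : m ≤ k - a x := by omega
    have hUm := U.unif_mid x hA0 hAk
    rw [← hm] at hUm
    -- the `z i` are not zero
    have hZ0 : ∀ i, 1 ≤ i → i ≤ m → cuspZ s (a x) i ≠ 0 := by
      intro i h1 h2 h0
      rcases Nat.eq_or_lt_of_le h2 with e | e
      · exact hUm.ne_zero (e ▸ h0)
      · have := U.link x i h1 (by omega) (by omega)
        rw [h0, div_zero, zero_sub, Valuation.map_neg, map_one] at this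
        exact lt_irrefl _ this
    have hZR : ∀ i, i ≤ m → cuspZ s (a x) i ∈ R := fun i hi =>
      R.sub_mem (D.runit_div hq2 hR hs hx i (by omega) (by omega)).mem R.one_mem
    -- the junction
    have e1 : a x - 1 + 1 = a x := by omega
    have hF := D.stepF hq2 hR hs hx (i := a x - 1) (by omega)
    have hV := D.stepV hq2 hR hs hx (i := a x) le_rfl hAk
    have rel1 := D.rel (a x - 1) (by omega)
    have cong1 := D.congF x (a x - 1) (by omega)
    rw [e1] at hF rel1 cong1
    have hne : s (a x - 1) ≠ s (a x + 1) := by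
      intro h
      apply hZ0 1 le_rfl hm1
      unfold cuspZ
      rw [h, div_self (D.ne _ (by omega)), sub_self]
    obtain ⟨-, -, hunit⟩ := cusp_mid_unit hq hR hx.le
      (fun y hy hyW => hqep y hy fun y' hy' => by
        by_cases e : y' = x
        · exact e ▸ hyW
        · exact absurd (haway y' e) (not_away_of_through hy'))
      hq0 (D.q_lt x) D.coeff_mem (D.ne _ (by omega)) (D.ne _ hak) (D.ne _ (by omega)) hne rel1
      (D.rel' (a x) hAk) (D.unit x _ (by omega)) cong1 (D.congV x (a x) le_rfl hAk)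
      (D.mem_rad hR hs _ (by omega)) hF.1 hV.1 (fun _ => U.ram1 x hA0 hAk)
    -- the chain
    refine princ_chain hqep hR.add_rad hx haway
      (fun i => if i = 0 then (q : F) else cuspZ s (a x) i) (if_pos rfl) m ?_ ?_ ?_ ?_
    · intro i hi
      by_cases h0 : i = 0
      · simp only [h0, if_true]
        exact hqR.1
      · simp only [h0, if_false]
        exact hZR i hi
    · intro i hi
      by_cases h0 : i = 0
      · simp only [h0, if_true]
        exact hq0
      · simp only [h0, if_false]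
        exact hZ0 i (by omega) hi
    · intro i hi
      by_cases h0 : i = 0
      · subst h0
        refine ⟨q - 1, by omega, 1, _, RUnit.one R, hunit, ?_⟩
        simp only [zero_add, one_ne_zero, if_false, if_true, mul_one]
        unfold cuspZ
        rw [sub_self, map_zero]
        exact zero_lt_one
      · refine ⟨q, by omega, 1, 1, RUnit.one R, RUnit.one R, ?_⟩
        simp only [h0, Nat.succ_ne_zero, if_false, mul_one]
        exact U.link x i (by omega) (by omega) (by omega)
    · have : m ≠ 0 := by omega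
      simp only [this, if_false]
      exact hUm

end Fermat.Agent.S45.Pts

end
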