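/-
S45, project CARAYOL-K, block PTS (helper145): INDICATOR FAMILIES at a point `R`.

`Y c` is an indicator function of the vertical component `V c`: `∏ c, Y c = q`, `Y c` is a nonunit
of `V c` and a unit of the other vertical valuations, `Y c ∈ R`.
[Level `q^k`: pull backs of the indicator functions `Y 0, Y 1, Y 2` of the level `q²` instance
(`BAD/Model/NonCusp/Defs.lean`) along the windows.]

* `Ind.away_iff`   : `Away R (V c) ↔ RUnit R (Y c)`;
* `Ind.through_iff`: `Through R (V c) ↔ Y c ∈ rad R`;
* `Ind.princ`      : if `q` is a uniformiser of `V c` then `R ∩ 𝔪_{V c}` is generated by `Y c`.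
-/
import Mathlib
import Fermat.Agent.S18.Defs
import Fermat.Agent.S36.BP.Defs
import Fermat.Agent.S36.BP.Rad
import Fermat.Agent.S36.BP.Build.LocalCrit
import Fermat.Agent.S36.BP.Build.Level0

set_option autoImplicit false

noncomputable section

namespace Fermat.Agent.S45.Pts

open Fermat.Agent.S18 Fermat.Agent.S36.BP Fermat.Agent.S36.BP.Build

variable {F : Type*} [Field F] {κ : Type*} [Fintype κ]

/-- An indicator family at the point `R`. -/
structure Ind (q : ℕ) (V : κ → ValuationSubring F) (R : Subring F) (Y : κ → F) : Prop where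
  q_ne : (q : F) ≠ 0
  prod : ∏ c, Y c = (q : F)
  lt : ∀ c, (V c).valuation (Y c) < 1
  unit : ∀ c c', c' ≠ c → (V c').valuation (Y c) = 1
  mem : ∀ c, Y c ∈ R
  qep : LocQep q V R
  ta : ∀ c, Through R (V c) ∨ Away R (V c)

namespace Ind

variable {q : ℕ} {V : κ → ValuationSubring F} {R : Subring F} {Y : κ → F}

theorem ne_zero (h : Ind q V R Y) (c : κ) : Y c ≠ 0 := by
  intro h0
  apply h.q_ne
  rw [← h.prod]
  exact Finset.prod_eq_zero (Finset.mem_univ c) h0

theorem q_div_mem [DecidableEq κ] (h : Ind q V R Y) (c : κ) : (q : F) ^ 1 / Y c ∈ R := by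
  have e : (q : F) ^ 1 / Y c = ∏ c' ∈ Finset.univ.erase c, Y c' := by
    rw [pow_one, ← h.prod, ← Finset.mul_prod_erase _ _ (Finset.mem_univ c),
      mul_div_cancel_left₀ _ (h.ne_zero c)]
  rw [e]
  exact R.prod_mem fun c' _ => h.mem c'

theorem val_eq_q [DecidableEq κ] (h : Ind q V R Y) (c : κ) :
    (V c).valuation (Y c) = (V c).valuation (q : F) := by
  rw [← h.prod, ← Finset.mul_prod_erase _ _ (Finset.mem_univ c), map_mul, map_prod,
    Finset.prod_eq_one, mul_one]
  intro c' hc'
  exact h.unit c' c (Finset.ne_of_mem_erase hc').symm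

theorem runit_of_away (h : Ind q V R Y) {c : κ} (hc : Away R (V c)) : RUnit R (Y c) := by
  classical
  refine runit_of h.qep (h.mem c) (h.ne_zero c) (k := 1) (h.q_div_mem c) ?_
  intro c' hc'
  by_cases e : c' = c
  · subst e
    exact absurd hc (not_away_of_through hc')
  · exact h.unit c c' e

theorem away_iff (h : Ind q V R Y) (c : κ) : Away R (V c) ↔ RUnit R (Y c) :=
  ⟨h.runit_of_away, fun hu => ⟨Y c, hu, h.lt c⟩⟩

theorem through_iff (h : Ind q V R Y) (c : κ) : Through R (V c) ↔ Y c ∈ rad R := by
  constructor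
  · intro ht
    exact mem_rad_of_val_lt ht.le (h.mem c) (h.lt c)
  · intro hr
    rcases h.ta c with ht | ha
    · exact ht
    · exact absurd (h.runit_of_away ha) hr.2

/-- the prime of a component of multiplicity one is generated by its indicator function -/
theorem princ (h : Ind q V R Y) {c : κ} (hU : IsUnif (V c) (q : F)) : Princ R (V c) := by
  classical
  have hvq : (V c).valuation (q : F) ≠ 0 := (Valuation.ne_zero_iff _).2 h.q_ne
  refine princ_of h.qep c (h.mem c) (h.ne_zero c) (k := 1) (h.q_div_mem c) (h.lt c) ?_ ?_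
  · intro y hy
    rw [h.val_eq_q c]
    have h3 := Level0.div_mem_of_val_lt_one hU hy
    rw [mem_iff_val_le, map_div₀] at h3
    exact (div_le_one₀ (zero_lt_iff.2 hvq)).1 h3
  · intro c' hc' _
    exact h.unit c c' hc'

end Ind

end Fermat.Agent.S45.Pts

end
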