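/-
S45, project CARAYOL-K, block PTS (helper177): NORM-UNIT = the second half of `PtHypK.cross`.

If ALL the vertical components pass through the point `R = B_𝔫` (`B` any subring stable under the three
"(embedding) ∘ (norm)" maps), then `N_α`, `N_β`, `N₀` preserve the units of `R`.

* `mem_of_val_lt`      : `Through (B_𝔫) W`, `b ∈ B`, `W(b) < 1`  ⟹  `b ∈ 𝔫`;
* `Rad.cong_pow`       : `Rad q N W`, `y ∈ W`  ⟹  `N y ≡ y ^ q` modulo `𝔪_W`;
* `norm_unit_of_rad`   : one radicial component through `𝔫`  ⟹  `N` preserves the units of `B_𝔫`;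
* `norm₀_unit`         : the same for `N₀`, from `tieα` and `tie_resα`;
* `Top.norm_units`     : the three statements, from `Pts.Top`, in the shape of `PtHypK.cross`.
-/
import Fermat.Agent.BAD.Model.NormUnit
import Fermat.Agent.S45.Pts.Defs

set_option autoImplicit false

noncomputable section

namespace Fermat.Agent.S45.Pts.NU

open Fermat.Agent.S18 Fermat.Agent.S36.BP Fermat.Agent.BAD.Model Fermat.Agent.S45.K

variable {F : Type*} [Field F]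

/-- an element of `B` outside `𝔫` is a unit of `B_𝔫`. -/
theorem runit_of_not_mem (B : Subring F) (𝔫 : Ideal B) [𝔫.IsPrime] {b : B} (hb : b ∉ 𝔫) :
    RUnit (locSub B 𝔫) (b : F) := by
  have h1 : (1 : B) ∉ 𝔫 := fun h => (inferInstance : 𝔫.IsPrime).ne_top ((Ideal.eq_top_iff_one _).2 h)
  have hb0 : (b : F) ≠ 0 := by
    intro h0
    apply hb
    have : b = 0 := Subtype.ext h0
    rw [this]
    exact 𝔫.zero_mem
  refine ⟨hb0, ⟨b, 1, h1, by simp⟩, ⟨1, b, hb, ?_⟩⟩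
  rw [inv_mul_cancel₀ hb0]
  rfl

/-- the prime of a component through `B_𝔫` is contained in `𝔫`. -/
theorem mem_of_val_lt (B : Subring F) (𝔫 : Ideal B) [𝔫.IsPrime] {W : ValuationSubring F}
    (hW : ∀ r ∈ locSub B 𝔫, r ∈ W) (b : B) (hb : W.valuation (b : F) < 1) : b ∈ 𝔫 := by
  by_contra hn
  obtain ⟨h0, -, h2⟩ := runit_of_not_mem B 𝔫 hn
  have h3 : W.valuation (b : F)⁻¹ ≤ 1 := (ValuationSubring.valuation_le_one_iff W _).2 (hW _ h2)
  rw [map_inv₀] at h3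
  have h4 : W.valuation (b : F) ≠ 0 := (Valuation.ne_zero_iff _).2 h0
  have h5 : 1 ≤ W.valuation (b : F) := (inv_le_one₀ (zero_lt_iff.2 h4)).1 h3
  exact absurd hb (not_lt.2 h5)

theorem mem_of_mem_locSub (B : Subring F) (𝔫 : Ideal B) [𝔫.IsPrime] (b : B) :
    (b : F) ∈ locSub B 𝔫 :=
  ⟨b, 1, fun h => (inferInstance : 𝔫.IsPrime).ne_top ((Ideal.eq_top_iff_one _).2 h), by simp⟩

/-- `Rad.res` + `Rad.ord` give the congruence for all elements of `W`. -/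
theorem _root_.Fermat.Agent.S45.K.Rad.cong_pow {q : ℕ} {N : F →* F} {W : ValuationSubring F}
    (H : Rad q N W) (hq : 0 < q) {y : F} (hy : y ∈ W) : W.valuation (N y - y ^ q) < 1 := by
  rcases ((ValuationSubring.valuation_le_one_iff W _).2 hy).lt_or_eq with h | h
  · have h1 : W.valuation y ^ q < 1 := pow_lt_one₀ zero_le h hq.ne'
    refine Valuation.map_sub_lt _ ?_ ?_
    · rw [H.ord]
      exact h1
    · rw [map_pow]
      exact h1
  · exact H.res y h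

/-- **One radicial component through `𝔫`**: the norm preserves the units of `B_𝔫`. -/
theorem norm_unit_of_rad {q : ℕ} (hq : 0 < q) (B : Subring F) {W : ValuationSubring F} {N : F →* F}
    (hN : ∀ b ∈ B, N b ∈ B) (H : Rad q N W) (𝔫 : Ideal B) [𝔫.IsMaximal]
    (hW : ∀ r ∈ locSub B 𝔫, r ∈ W) :
    ∀ ε : F, RUnit (locSub B 𝔫) ε → RUnit (locSub B 𝔫) (N ε) :=
  norm_unit_of_cong (q := q) B W N hN
    (fun b hb => H.cong_pow hq (hW _ (mem_of_mem_locSub B 𝔫 ⟨b, hb⟩))) 𝔫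
    (mem_of_val_lt B 𝔫 hW)

/-- a multiplicative map which preserves `B` and the complement of `𝔫` preserves the units of `B_𝔫`. -/
theorem runit_map (B : Subring F) (N : F →* F) (hN : ∀ b ∈ B, N b ∈ B) (𝔫 : Ideal B) [𝔫.IsPrime]
    (key : ∀ b : B, b ∉ 𝔫 → (⟨N b, hN b b.2⟩ : B) ∉ 𝔫) :
    ∀ ε : F, RUnit (locSub B 𝔫) ε → RUnit (locSub B 𝔫) (N ε) := by
  have hprime : 𝔫.IsPrime := inferInstance
  have hne : ∀ b : B, b ∉ 𝔫 → (b : F) ≠ 0 := by
    intro b hb h0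
    apply hb
    have : b = 0 := Subtype.ext h0
    rw [this]
    exact 𝔫.zero_mem
  rintro ε ⟨hε0, ⟨a, s, hs, e⟩, ⟨a', s', hs', e'⟩⟩
  have ha : a ∉ 𝔫 := by
    intro ha
    have h1 : a * a' = s * s' := by
      apply Subtype.ext
      push_cast
      rw [← e, ← e']
      field_simp
    have h2 : s * s' ∈ 𝔫 := h1 ▸ 𝔫.mul_mem_right a' ha
    exact (hprime.mem_or_mem h2).elim hs hs'
  have hNe : N ε * N s = N a := by rw [← map_mul, e]
  have hNs0 : N (s : F) ≠ 0 := hne _ (key s hs)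
  have hNa0 : N (a : F) ≠ 0 := hne _ (key a ha)
  have hNε0 : N ε ≠ 0 := by
    intro h
    rw [h, zero_mul] at hNe
    exact hNa0 hNe.symm
  refine ⟨hNε0, ⟨⟨N a, hN a a.2⟩, ⟨N s, hN s s.2⟩, key s hs, hNe⟩,
    ⟨⟨N s, hN s s.2⟩, ⟨N a, hN a a.2⟩, key a ha, ?_⟩⟩
  show (N ε)⁻¹ * N a = N s
  rw [← hNe]
  field_simp

/-- a unit of `B_𝔫` which lies in `B` is outside `𝔫`. -/
theorem not_mem_of_runit (B : Subring F) (𝔫 : Ideal B) [𝔫.IsPrime] {b : B}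
    (h : RUnit (locSub B 𝔫) (b : F)) : b ∉ 𝔫 := by
  have hprime : 𝔫.IsPrime := inferInstance
  obtain ⟨h0, -, a, s, hs, e⟩ := h
  intro hb
  apply hs
  have h1 : s = a * b := by
    apply Subtype.ext
    push_cast
    rw [← e]
    field_simp
  rw [h1]
  exact 𝔫.mul_mem_left a hb

/-- **`N₀` preserves the units of `B_𝔫`**, if `N_α` does, `N₀ ∘ N_α = N₀ ^ q`, and `N₀ y ≡ y ^ (q q)` on a component
through `𝔫` for the `y ∈ E_α`. -/
theorem norm₀_unit {q : ℕ} (hq : 0 < q) (B : Subring F) {W : ValuationSubring F} {Eα : Subfield F}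
    {Nα N₀ : F →* F} (hNα : ∀ b ∈ B, Nα b ∈ B) (hN₀ : ∀ b ∈ B, N₀ b ∈ B)
    (hmem : ∀ y, Nα y ∈ Eα) (htie : ∀ y, N₀ (Nα y) = N₀ y ^ q)
    (hres : ∀ y ∈ Eα, W.valuation y = 1 → W.valuation (N₀ y - y ^ (q * q)) < 1)
    (𝔫 : Ideal B) [𝔫.IsMaximal] (hW : ∀ r ∈ locSub B 𝔫, r ∈ W)
    (hα : ∀ ε : F, RUnit (locSub B 𝔫) ε → RUnit (locSub B 𝔫) (Nα ε)) :
    ∀ ε : F, RUnit (locSub B 𝔫) ε → RUnit (locSub B 𝔫) (N₀ ε) := by
  have hprime : 𝔫.IsPrime := Ideal.IsMaximal.isPrime inferInstance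
  refine runit_map B N₀ hN₀ 𝔫 fun b hb hNb => ?_
  -- `y = N_α b` is outside `𝔫`
  have hy : (⟨Nα b, hNα b b.2⟩ : B) ∉ 𝔫 :=
    not_mem_of_runit B 𝔫 (hα _ (runit_of_not_mem B 𝔫 hb))
  have hyW : W.valuation (Nα b) = 1 := by
    have h1 : W.valuation (Nα b) ≤ 1 :=
      (ValuationSubring.valuation_le_one_iff W _).2
        (hW _ (mem_of_mem_locSub B 𝔫 ⟨Nα b, hNα b b.2⟩))
    rcases h1.lt_or_eq with h | h
    · exact absurd (mem_of_val_lt B 𝔫 hW ⟨Nα b, hNα b b.2⟩ h) hy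
    · exact h
  have h2 := hres _ (hmem b) hyW
  rw [htie] at h2
  have h3 : ((⟨N₀ b, hN₀ b b.2⟩ : B) ^ q - (⟨Nα b, hNα b b.2⟩ : B) ^ (q * q)) ∈ 𝔫 :=
    mem_of_val_lt B 𝔫 hW _ (by push_cast; exact h2)
  have h4 : (⟨Nα b, hNα b b.2⟩ : B) ^ (q * q) ∈ 𝔫 := by
    have h5 : (⟨N₀ b, hN₀ b b.2⟩ : B) ^ q ∈ 𝔫 := 𝔫.pow_mem_of_mem hNb q hq
    have := 𝔫.sub_mem h5 h3
    rwa [sub_sub_cancel] at this
  exact hy (hprime.mem_of_pow_mem _ h4)

section Top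

variable {K₀ F₀ : Type*} [Field K₀] [Field F₀] [Algebra K₀ F₀] [Algebra K₀ F]

/-- **NORM-UNIT**: the second half of `PtHypK.cross` at a point of the chart `chart A₀ (d 0 j)` through which all the
components pass. -/
theorem _root_.Fermat.Agent.S45.Pts.Top.norm_units {A₀ : ValuationSubring K₀} {q k : ℕ}
    {V : Fin (k + 1) → ValuationSubring F} {j : F₀} {d : ℕ → F₀ →ₐ[K₀] F} {Eα : Subfield F}
    {Nα Nβ N₀ : F →* F} (T : Top A₀ q k V j d Eα Nα Nβ N₀) (hq : 0 < q)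
    (𝔫 : Ideal (chart A₀.toSubring (d 0 j))) [𝔫.IsMaximal]
    (hT : ∀ c, Through (locSub (chart A₀.toSubring (d 0 j)) 𝔫) (V c)) :
    (∀ ε : F, RUnit (locSub (chart A₀.toSubring (d 0 j)) 𝔫) ε →
      RUnit (locSub (chart A₀.toSubring (d 0 j)) 𝔫) (Nα ε)) ∧
    (∀ ε : F, RUnit (locSub (chart A₀.toSubring (d 0 j)) 𝔫) ε →
      RUnit (locSub (chart A₀.toSubring (d 0 j)) 𝔫) (Nβ ε)) ∧
    (∀ ε : F, RUnit (locSub (chart A₀.toSubring (d 0 j)) 𝔫) ε →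
      RUnit (locSub (chart A₀.toSubring (d 0 j)) 𝔫) (N₀ ε)) := by
  obtain ⟨a, ha⟩ := T.radα
  obtain ⟨b, hb⟩ := T.radβ
  obtain ⟨c, hc⟩ := T.tie_resα
  have hα := norm_unit_of_rad hq _ T.normα_chart ha 𝔫 (hT a).le
  exact ⟨hα, norm_unit_of_rad hq _ T.normβ_chart hb 𝔫 (hT b).le,
    norm₀_unit hq _ T.normα_chart T.norm₀_chart T.normα_mem T.tieα hc 𝔫 (hT c).le hα⟩

end Top

end Fermat.Agent.S45.Pts.NU

end
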