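/-
S45, block PTS, node THR (helper219): a component `V c` with `R ⊆ V c`, `V c` a localisation of `R`, passes through `R`
(`R / P_c` is a discrete valuation ring): near `R` the component is a copy of the good model of level `0`.
-/
import Fermat.Agent.S45.Pts.Defs
import Fermat.Agent.BAD.Model.Input.GoodBelow
import Fermat.Agent.BAD.Model.Cusp.Through
import Fermat.Agent.BAD.Model.Seidenberg
import Fermat.Agent.S36.BP.Build.ChartMap

set_option autoImplicit false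

noncomputable section

namespace Fermat.Agent.S45.Pts

open Fermat.Agent.S18 Fermat.Agent.S36.BP Fermat.Agent.BAD.Model Fermat.Agent.S45.K

variable {K₀ F₀ F₁ F₂ F : Type*} [Field K₀] [Field F₀] [Field F₁] [Field F₂] [Field F]
  [Algebra K₀ F₀] [Algebra K₀ F₁] [Algebra K₀ F₂] [Algebra K₀ F]
variable {A₀ : ValuationSubring K₀} {q k : ℕ} {al0 be0 : F₀ →ₐ[K₀] F₁} {al1 be1 : F₁ →ₐ[K₀] F₂}
  {V0 : ValuationSubring F₀} {V1 : Fin 2 → ValuationSubring F₁} {V2 : Fin 3 → ValuationSubring F₂}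
  {V : Fin (k + 1) → ValuationSubring F} {j x₀ t : F₀}
  {d : ℕ → F₀ →ₐ[K₀] F} {st : ℕ → F₁ →ₐ[K₀] F} {w : ℕ → F₂ →ₐ[K₀] F}
  {Eα : Subfield F} {Nα Nβ N₀ : F →* F} {R : Subring F}

/-- "finite or infinite" passes from `j(z)` to `j(q^i z)`. -/
theorem Geo.fin_d (G : Geo A₀ k al0 be0 al1 be1 V0 V1 V2 V j d st w) (hj : j ≠ 0) (hR : IsPt A₀ R)
    (hx : d 0 j ∈ R ∨ (d 0 j)⁻¹ ∈ rad R) {i : ℕ} (hi : i ≤ k) :
    d i j ∈ R ∨ (d i j)⁻¹ ∈ rad R := by
  rcases hx with h | h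
  · exact Or.inl (Seidenberg.chart_le_of_mem_pt hR h _ (G.jint i hi).1)
  · exact Or.inr (inv_mem_rad_of_integral hR ((map_ne_zero (d 0)).2 hj) (G.jint i hi).2 h)

/-- the abstract form of the node N4 of the S36 instance. -/
theorem goodBelow_pairK (ι : F₀ →ₐ[K₀] F) {Ow : ValuationSubring F₀}
    {ϖ x₀ : F₀} (hU : IsUnif Ow ϖ) (h1 : IsChart Ow ϖ (chart A₀.toSubring x₀))
    (h2 : IsChart Ow ϖ (chart A₀.toSubring x₀⁻¹)) {W : ValuationSubring F}
    (hW : W.comap (ι : F₀ →+* F) = Ow) (hd : ∀ y ∈ W, ∃ y₀ : F₀, W.valuation (ι y₀ - y) < 1)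
    (hR : IsPt A₀ R) (hle : ∀ r ∈ R, r ∈ W) (hx : ι x₀ ∈ R ∨ (ι x₀)⁻¹ ∈ R) :
    GoodBelow W (ι : F₀ →+* F).fieldRange R := by
  rcases hx with hx | hx
  · exact goodBelow_of_isChart (ι : F₀ →+* F) hU h1 hW hd hR hle fun b hb =>
      Seidenberg.chart_le_of_mem_pt hR hx _ (Build.map_mem_chart ι _ _ _ hb)
  · refine goodBelow_of_isChart (ι : F₀ →+* F) hU h2 hW hd hR hle fun b hb =>
      Seidenberg.chart_le_of_mem_pt hR hx _ ?_
    have := Build.map_mem_chart ι _ _ _ hb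
    rwa [map_inv₀] at this

/-- **THR.** -/
theorem through_of_leLoc (G : Geo A₀ k al0 be0 al1 be1 V0 V1 V2 V j d st w)
    (b0 : B0 A₀ q V0 j x₀ t F) (T : Top A₀ q k V j d Eα Nα Nβ N₀) (hR : IsPt A₀ R)
    (hx : d 0 j ∈ R ∨ (d 0 j)⁻¹ ∈ rad R) (c : Fin (k + 1)) (hL : LeLoc R (V c)) :
    Through R (V c) := by
  have key : ∀ i ≤ k, (∀ y ∈ V c, ∃ y₀ : F₀, (V c).valuation (d i y₀ - y) < 1) →
      Through R (V c) := by
    intro i hi hd
    exact (goodBelow_pairK (d i) b0.unif b0.chart₁ b0.chart₂ (G.comap_d c i hi) hd hR hL.1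
      (b0.fin (d i) R hR (G.fin_d b0.j_ne hR hx hi))).through hR hL
  rcases le_total (2 * (c : ℕ)) k with h | h
  · exact key 0 (Nat.zero_le k) (T.dense_lo c h)
  · exact key k le_rfl (T.dense_hi c h)

end Fermat.Agent.S45.Pts

end
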